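/-
Programme T1B, brick F2' (helper79), part 1: **orders of the modular units `U_δ = Δ(δ z)/Δ(z)` at
every place of `X₀(N)`** (over `ℚbar`), `δ ∣ N`.

* `compSL_deltaQuot_gcd` : `U_δ(γ z) = e⁻¹² Δ((a z + b)/e)/Δ(z)` with `a e = δ` AND `a = gcd(δ, γ₁₀)`;
* `order_T_uF_gcd`       : the `q_δ`-order of the cusp expansion of `U_δ` at `γ` is `gcd(δ, γ₁₀)² - δ`;
* `UF N δ h`             : `U_δ` as an element of `FF N`;  `order_T_UF` : its `q_N`-order at `γ` is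
  `(N/δ) (gcd(δ, γ₁₀)² - δ)`;
* `ord_UF_point`         : `U_δ` is a unit at every place of `FF N` which is not a pole of `j` (`4 ∣ N`).
-/
import Mathlib
import Fermat.Agent.RED.BASE.Hauptmodul12
import Fermat.Agent.RED.BASE.CuspExpLevel11
import Fermat.Agent.RED.BASE.DeltaMem19
import Fermat.Agent.RED.BASE.NoElliptic14
import Fermat.Agent.RED.CUSP.CuspExact16

set_option autoImplicit false
set_option linter.unusedSectionVars false

open UpperHalfPlane ModularCurve HahnSeries AlgebraicCurve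
open scoped MatrixGroups IntermediateField

noncomputable section

namespace Fermat.Agent.T1B.TestElt79

open Fermat.Agent.X0 Fermat.Agent.X0.FF Fermat.Agent.X0.Analytic Fermat.Agent.X0.Hermite
open Fermat.Agent.RED.BASE.EtaQuot12 Fermat.Agent.RED.BASE.Interface12
open Fermat.Agent.RED.BASE.Hauptmodul12
open Fermat.Agent.IG.PR.Interface20 Fermat.Agent.IG.AN.DeltaQuot19
open Fermat.Agent.IG.AN.DeltaAffine11 Fermat.Agent.X0.QExpAffine
open Fermat.Agent.RED.BASE.QExpMem19 Fermat.Agent.IG.AN.DeltaQuotExp19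
open Fermat.Agent.RED.BASE.Unbranched14 Fermat.Agent.RED.BASE.DeltaMem19
open Fermat.Agent.RED.BASE.CuspExpMain11 Fermat.Agent.RED.BASE.CuspExpLevel11

/-! ### Hermite normal form with the gcd -/

/-- In the Hermite normal form `diag(d,1) γ = γ' [[a,b],[0,e]]` one has `a = gcd(d, γ₁₀)`. -/
theorem hermite_a_eq_gcd {γ γ' : SL(2, ℤ)} {d a e : ℕ} (hae : a * e = d)
    (h1 : (d : ℤ) * γ 0 0 = γ' 0 0 * a) (h3 : γ 1 0 = γ' 1 0 * a) :
    a = Int.gcd (d : ℤ) (γ 1 0) := by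
  have hdet : γ' 0 0 * γ' 1 1 - γ' 0 1 * γ' 1 0 = 1 := by
    have := γ'.det_coe
    rw [Matrix.det_fin_two] at this
    exact this
  have hdetγ : γ 0 0 * γ 1 1 - γ 0 1 * γ 1 0 = 1 := by
    have := γ.det_coe
    rw [Matrix.det_fin_two] at this
    exact this
  apply Nat.dvd_antisymm
  · apply Int.natCast_dvd_natCast.mp
    apply Int.dvd_coe_gcd
    · exact ⟨e, by rw [← hae]; push_cast; ring⟩
    · exact ⟨γ' 1 0, by rw [h3]; ring⟩
  · apply Int.natCast_dvd_natCast.mp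
    set g : ℤ := ((Int.gcd (d : ℤ) (γ 1 0) : ℕ) : ℤ) with hg
    have hgd : g ∣ (d : ℤ) := Int.gcd_dvd_left _ _
    have hgc : g ∣ γ 1 0 := Int.gcd_dvd_right _ _
    have e1 : g ∣ γ' 0 0 * a := by rw [← h1]; exact Dvd.dvd.mul_right hgd _
    have e2 : g ∣ γ' 1 0 * a := by rw [← h3]; exact hgc
    have : (a : ℤ) = γ' 1 1 * (γ' 0 0 * a) - γ' 0 1 * (γ' 1 0 * a) := by
      linear_combination (-(a : ℤ)) * hdet
    rw [this]
    exact dvd_sub (Dvd.dvd.mul_left e1 _) (Dvd.dvd.mul_left e2 _)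

/-- **Hermite normal form with denominators and the gcd.** -/
theorem exists_scaleH_smul_denom_gcd (γ : SL(2, ℤ)) (d : ℕ) [NeZero d] :
    ∃ (γ' : SL(2, ℤ)) (a e : ℕ) (b : ℤ) (ha : 0 < a) (he : 0 < e), a * e = d ∧
      a = Int.gcd (d : ℤ) (γ 1 0) ∧
      ∀ z : ℍ, scaleH d (γ • z) = γ' • affH a e b ha he z ∧
        denom γ' (affH a e b ha he z) = denom γ z / e := by
  have hd : 0 < d := Nat.pos_of_ne_zero (NeZero.ne d)
  obtain ⟨γ', a, e, b, hae, ha, he, hb0, hbe, h1, h2, h3, h4⟩ := exists_hermite γ hd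
  refine ⟨γ', a, e, b, ha, he, hae, hermite_a_eq_gcd hae h1 h3, fun z => ?_⟩
  have hden := Hermite.denom_ne_zero' γ z
  have hden' := Hermite.denom_ne_zero' γ' (affH a e b ha he z)
  rw [coe_affH] at hden'
  have heC : (e : ℂ) ≠ 0 := by exact_mod_cast he.ne'
  have e1 : ((d : ℤ) : ℂ) * ((γ 0 0 : ℤ) : ℂ) = ((γ' 0 0 : ℤ) : ℂ) * ((a : ℤ) : ℂ) := by
    exact_mod_cast congrArg (Int.cast : ℤ → ℂ) h1
  have e2 : ((d : ℤ) : ℂ) * ((γ 0 1 : ℤ) : ℂ) =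
      ((γ' 0 0 : ℤ) : ℂ) * (b : ℂ) + ((γ' 0 1 : ℤ) : ℂ) * ((e : ℤ) : ℂ) := by
    exact_mod_cast congrArg (Int.cast : ℤ → ℂ) h2
  have e3 : ((γ 1 0 : ℤ) : ℂ) = ((γ' 1 0 : ℤ) : ℂ) * ((a : ℤ) : ℂ) := by
    exact_mod_cast congrArg (Int.cast : ℤ → ℂ) h3
  have e4 : ((γ 1 1 : ℤ) : ℂ) =
      ((γ' 1 0 : ℤ) : ℂ) * (b : ℂ) + ((γ' 1 1 : ℤ) : ℂ) * ((e : ℤ) : ℂ) := by
    exact_mod_cast congrArg (Int.cast : ℤ → ℂ) h4
  simp only [Int.cast_natCast] at e1 e2 e3 e4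
  have hnum : ((γ' 0 0 : ℤ) : ℂ) * (((a : ℂ) * z + b) / e) + ((γ' 0 1 : ℤ) : ℂ) =
      ((d : ℂ) * (((γ 0 0 : ℤ) : ℂ) * z + ((γ 0 1 : ℤ) : ℂ))) / e := by
    field_simp
    linear_combination (-(z : ℂ)) * e1 - e2
  have hdenom : ((γ' 1 0 : ℤ) : ℂ) * (((a : ℂ) * z + b) / e) + ((γ' 1 1 : ℤ) : ℂ) =
      (((γ 1 0 : ℤ) : ℂ) * z + ((γ 1 1 : ℤ) : ℂ)) / e := by
    field_simp
    linear_combination (-(z : ℂ)) * e3 - e4
  constructor
  · apply UpperHalfPlane.ext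
    rw [coe_scaleH, coe_smul', coe_smul', coe_affH, hnum, hdenom]
    field_simp
  · rw [denom_eq, denom_eq, coe_affH, hdenom]

/-- **The automorphy step with the gcd**: `U_p(γ z) = e⁻¹² Δ((a z + b)/e)/Δ(z)`, `a e = p`,
`a = gcd(p, γ₁₀)`. -/
theorem compSL_deltaQuot_gcd (p : ℕ) [NeZero p] (γ : SL(2, ℤ)) :
    ∃ (a e : ℕ) (b : ℤ) (ha : 0 < a) (he : 0 < e), a * e = p ∧ a = Int.gcd (p : ℤ) (γ 1 0) ∧
      compSL (deltaQuot p) γ = fun z => ((e : ℂ)⁻¹) ^ 12 * deltaAff a e b ha he z := by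
  obtain ⟨γ', a, e, b, ha, he, hae, hgcd, h⟩ := exists_scaleH_smul_denom_gcd γ p
  refine ⟨a, e, b, ha, he, hae, hgcd, funext fun z => ?_⟩
  obtain ⟨h1, h2⟩ := h z
  have heC : (e : ℂ) ≠ 0 := by exact_mod_cast he.ne'
  have hden : denom γ z ≠ 0 := denom_ne_zero γ z
  have hΔ : ModularForm.discriminant z ≠ 0 := ModularForm.discriminant_ne_zero z
  show ModularForm.discriminant (scaleH p (γ • z)) / ModularForm.discriminant (γ • z) = _
  rw [h1, discriminant_smul_pow, discriminant_smul_pow, h2, deltaAff]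
  field_simp

/-! ### the cusp orders of `U_n` at its own level -/

/-- the `q_n`-order of the cusp expansion of `U_n = Δ(n z)/Δ(z)` at `γ` is `gcd(n, γ₁₀)² - n`. -/
theorem order_T_uF_gcd (n : ℕ) [NeZero n] (γ : SL(2, ℤ)) :
    ((cuspData n).T γ (uF n)).order =
      ((Int.gcd (n : ℤ) (γ 1 0) * Int.gcd (n : ℤ) (γ 1 0) : ℕ) : ℤ) - n := by
  obtain ⟨a, e', b, ha, he', hae, hgcd, hfun⟩ := compSL_deltaQuot_gcd n γ
  have hep : e' ∣ n := Dvd.intro_left a hae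
  have hI : IntgQN n (compSL (deltaQuot n) γ)
      (toC (HahnSeries.C (((e' : Kbar)⁻¹) ^ 12) * TK n a e' b)) := by
    rw [hfun, map_mul, Fermat.Agent.IG.AN.DeltaAffineBridge11.toC_C, map_pow, map_inv₀,
      map_natCast]
    exact intg_qn_mul n (intg_qn_const n _) (intgQN_quot n a e' b ha he' hep)
  have hT := T_eq_of_isNice (isNice_uq n) γ _ hI
  have hc : HahnSeries.C (((e' : Kbar)⁻¹) ^ 12) ≠ (0 : LaurentSeries Kbar) := by
    have : (e' : Kbar) ≠ 0 := by exact_mod_cast he'.ne'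
    exact HahnSeries.C_ne_zero (pow_ne_zero _ (inv_ne_zero this))
  have hTK : TK n a e' b ≠ 0 := TK_ne_zero n a e' b ha he' hep
  have hdiv : n / e' = a := by rw [← hae]; exact Nat.mul_div_cancel a he'
  show ((cuspData n).T γ ⟨uq Kbar n, _⟩).order = _
  rw [hT, HahnSeries.order_mul hc hTK, HahnSeries.order_C, zero_add,
    order_TK n a e' b ha he' hep, hdiv, ← hgcd]

/-! ### `U_δ` at level `N` -/

section Level

variable (N : ℕ) [NeZero N]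

/-- the modular unit `U_δ = Δ(δ z)/Δ(z)` as an element of `FF N`, `δ ∣ N`. -/
def UF (δ : ℕ) [NeZero δ] (h : δ ∣ N) : FF N := inclFF h (uF δ)

theorem coe_UF (δ : ℕ) [NeZero δ] (h : δ ∣ N) :
    ((UF N δ h : FF N) : LaurentSeries Kbar) = uq Kbar δ := rfl

theorem UF_eq (δ : ℕ) [NeZero δ] (h : δ ∣ N) :
    UF N δ h = ⟨uq Kbar δ, mem_of_isNice (isNice_of_dvd h (isNice_uq δ))⟩ := rfl

/-- the inverse `Δ(z)/Δ(δ z)` as an element of `FF N`. -/
def UFinv (δ : ℕ) [NeZero δ] (h : δ ∣ N) : FF N := ⟨uqInv δ Kbar, uqInv_mem δ h⟩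

theorem UFinv_mul_UF (δ : ℕ) [NeZero δ] (h : δ ∣ N) : UFinv N δ h * UF N δ h = 1 :=
  Subtype.ext (uqInv_mul_uq δ Kbar)

theorem UF_ne_zero (δ : ℕ) [NeZero δ] (h : δ ∣ N) : UF N δ h ≠ 0 :=
  right_ne_zero_of_mul_eq_one (UFinv_mul_UF N δ h)

theorem UFinv_eq_inv (δ : ℕ) [NeZero δ] (h : δ ∣ N) : UFinv N δ h = (UF N δ h)⁻¹ :=
  eq_inv_of_mul_eq_one_left (UFinv_mul_UF N δ h)

/-- the `q_N`-order of the cusp expansion of `U_δ` at `γ`: `(N/δ) (gcd(δ, γ₁₀)² - δ)`. -/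
theorem order_T_UF (δ : ℕ) [NeZero δ] (h : δ ∣ N) (γ : SL(2, ℤ)) :
    ((cuspData N).T γ (UF N δ h)).order =
      ((N / δ : ℕ) : ℤ) *
        (((Int.gcd (δ : ℤ) (γ 1 0) * Int.gcd (δ : ℤ) (γ 1 0) : ℕ) : ℤ) - δ) := by
  obtain ⟨c, rfl⟩ := h
  have hc : NeZero c := ⟨fun h0 => NeZero.ne (δ * c) (by rw [h0, mul_zero])⟩
  have hδ : 0 < δ := Nat.pos_of_ne_zero (NeZero.ne δ)
  rw [UF, T_inclFF c γ (uF δ), Fermat.Agent.RED.CUSP.CuspExact16.order_qExpand,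
    order_T_uF_gcd δ γ, Nat.mul_div_cancel_left c hδ]

/-- `U_δ` is a unit at the places of `FF N` which are not poles of `j` (no elliptic points). -/
theorem ord_UF_point (h2 : nuTwo N = 0) (h3 : nuThree N = 0) (δ : ℕ) [NeZero δ] (h : δ ∣ N)
    (v : Place Kbar (FF N)) (hv : 0 ≤ v.ord (jF N)) : v.ord (UF N δ h) = 0 := by
  obtain ⟨z₀, cj, hc, g, rfl⟩ :=
    exists_pointPlaceD_eq_of_ord_nonneg (realizeData N) (cuspData N) v hv
  have hne : UF N δ h - algebraMap Kbar (FF N) 0 ≠ 0 := by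
    rw [map_zero, sub_zero]
    exact UF_ne_zero N δ h
  have hreal : IsRealizedBy (realizeData N) (UF N δ h) (deltaQuot δ) :=
    exists_fraction_of_isNice (isNice_of_dvd h (isNice_uq δ))
  have e1 := ord_sub_eq_ordH (realizeData N) (cuspData N) h2 h3 (deltaQuot_mem_HolH δ)
    hreal z₀ cj hc g 0 hne
  rw [map_zero, sub_zero] at e1
  rw [e1]
  have hhol : (fun z => deltaQuot δ z - iotaK 0) ∈ HolH := by
    simp only [map_zero, sub_zero]
    exact deltaQuot_mem_HolH δ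
  have h0 : ordH (compSL (fun z => deltaQuot δ z - iotaK 0) g⁻¹) z₀ = 0 := by
    rw [ordH_eq_zero_iff (compSL_mem_HolH hhol g⁻¹), compSL_apply, map_zero, sub_zero]
    exact Fermat.Agent.RED.BASE.DeltaMem19.deltaQuot_ne_zero δ _
  rw [h0]
  rfl

end Level

end Fermat.Agent.T1B.TestElt79
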