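/-
Programme T1B, brick F2' (helper79), part 2: **the two test units over `ℚbar`** at a level `N` with
`4 q ∣ N` (`q` an odd prime):

* `h0F = U_4² U_{2q} / (U_2 U_{4q}²)`  (`= F(z)/F(qz)`, `F = Δ(4z)²/Δ(2z)`),
* `h1F = U_{2q} / (U_2 U_q²)`          (`= G(z)/G(qz)`, `G = Δ(z)²/Δ(2z)`),

and their divisors relative to the Hauptmodul `t` (`t³ U_4 = 1`):

* `ord_h0F_eq_zero` : `ord_v h0F = 0` at every place `v` of `FF N` at which `t` is finite;
* `ord_h1F_eq_zero` : `ord_v h1F = 0` at every place `v` at which `t⁻¹` is finite;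
* `h0F_mem_intRing`, `h0F_inv_mem_intRing`, `h1F_mem_intRing`, `h1F_inv_mem_intRing` :
  `h0F^{±1}` is integral over `ℚbar[t]`, `h1F^{±1}` is integral over `ℚbar[t⁻¹]`.
-/
import Mathlib
import Fermat.Agent.T1B.TestElt79.EtaDiv
import Fermat.Agent.RED.BASE.TGen19
import Fermat.Agent.RED.PUR.PlaceIntegral3

set_option autoImplicit false
set_option linter.unusedSectionVars false

open UpperHalfPlane ModularCurve HahnSeries AlgebraicCurve
open scoped MatrixGroups IntermediateField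

noncomputable section

namespace Fermat.Agent.T1B.TestElt79

open Fermat.Agent.X0 Fermat.Agent.X0.FF Fermat.Agent.X0.Analytic
open Fermat.Agent.RED.BASE.EtaQuot12 Fermat.Agent.RED.BASE.Interface12
open Fermat.Agent.IG.PR.Interface20
open Fermat.Agent.RED.BASE.DeltaMem19

/-! ### arithmetic of the gcd's -/

section Arith

theorem intGcd_natCast (δ : ℕ) (c : ℤ) : Int.gcd (δ : ℤ) c = Nat.gcd δ c.natAbs := by
  rw [Int.gcd, Int.natAbs_natCast]

theorem gcd_four_cases (k : ℕ) : Nat.gcd 4 k = 1 ∨ Nat.gcd 4 k = 2 ∨ Nat.gcd 4 k = 4 := by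
  have h : Nat.gcd 4 k ∣ 4 := Nat.gcd_dvd_left 4 k
  have hle : Nat.gcd 4 k ≤ 4 := Nat.le_of_dvd (by norm_num) h
  have hpos : 0 < Nat.gcd 4 k := Nat.gcd_pos_of_pos_left k (by norm_num)
  generalize Nat.gcd 4 k = g at h hle hpos
  interval_cases g
  · exact Or.inl rfl
  · exact Or.inr (Or.inl rfl)
  · exact absurd h (by decide)
  · exact Or.inr (Or.inr rfl)

theorem gcd_two_eq (k : ℕ) : Nat.gcd 2 k = Nat.gcd 2 (Nat.gcd 4 k) := by
  rw [← Nat.gcd_assoc]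
  rfl

theorem gcd_two_mul (q k : ℕ) (hq : Nat.Coprime 2 q) :
    Nat.gcd (2 * q) k = Nat.gcd 2 k * Nat.gcd q k := by
  rw [Nat.gcd_comm (2 * q) k, Nat.Coprime.gcd_mul k hq, Nat.gcd_comm k 2, Nat.gcd_comm k q]

theorem gcd_four_mul (q k : ℕ) (hq : Nat.Coprime 4 q) :
    Nat.gcd (4 * q) k = Nat.gcd 4 k * Nat.gcd q k := by
  rw [Nat.gcd_comm (4 * q) k, Nat.Coprime.gcd_mul k hq, Nat.gcd_comm k 4, Nat.gcd_comm k q]

end Arith

/-! ### the two test units -/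

section Units

variable (N q : ℕ) [NeZero N] [NeZero q]

theorem dvd_of_four_mul {δ : ℕ} (hδ : δ ∣ 4 * q) (h : 4 * q ∣ N) : δ ∣ N := hδ.trans h

theorem two_dvd_four_mul : 2 ∣ 4 * q := ⟨2 * q, by ring⟩
theorem four_dvd_four_mul : 4 ∣ 4 * q := ⟨q, rfl⟩
theorem q_dvd_four_mul : q ∣ 4 * q := ⟨4, by ring⟩
theorem two_mul_dvd_four_mul : 2 * q ∣ 4 * q := ⟨2, by ring⟩

variable (h : 4 * q ∣ N)

/-- `U_4`. -/
def U4 : FF N := UF N 4 ((four_dvd_four_mul q).trans h)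
/-- `U_2`. -/
def U2 : FF N := UF N 2 ((two_dvd_four_mul q).trans h)
/-- `U_q`. -/
def Uq : FF N := UF N q ((q_dvd_four_mul q).trans h)
/-- `U_{2q}`. -/
def U2q : FF N := UF N (2 * q) ((two_mul_dvd_four_mul q).trans h)
/-- `U_{4q}`. -/
def U4q : FF N := UF N (4 * q) h

theorem U4_ne_zero : U4 N q h ≠ 0 := UF_ne_zero N _ _
theorem U2_ne_zero : U2 N q h ≠ 0 := UF_ne_zero N _ _
theorem Uq_ne_zero : Uq N q h ≠ 0 := UF_ne_zero N _ _
theorem U2q_ne_zero : U2q N q h ≠ 0 := UF_ne_zero N _ _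
theorem U4q_ne_zero : U4q N q h ≠ 0 := UF_ne_zero N _ _

/-- the test unit of chart `0`: `U_4² U_{2q} / (U_2 U_{4q}²)`. -/
def h0F : FF N := U4 N q h ^ 2 * U2q N q h * ((U2 N q h)⁻¹ * ((U4q N q h)⁻¹) ^ 2)

/-- the test unit of chart `1`: `U_{2q} / (U_2 U_q²)`. -/
def h1F : FF N := U2q N q h * ((U2 N q h)⁻¹ * ((Uq N q h)⁻¹) ^ 2)

theorem h0F_mul : h0F N q h * (U2 N q h * U4q N q h ^ 2) = U4 N q h ^ 2 * U2q N q h := by
  have h2 := U2_ne_zero N q h
  have h4 := U4q_ne_zero N q h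
  unfold h0F
  field_simp

theorem h1F_mul : h1F N q h * (U2 N q h * Uq N q h ^ 2) = U2q N q h := by
  have h2 := U2_ne_zero N q h
  have h4 := Uq_ne_zero N q h
  unfold h1F
  field_simp

theorem h0F_ne_zero : h0F N q h ≠ 0 := by
  intro h0
  have := h0F_mul N q h
  rw [h0, zero_mul] at this
  exact mul_ne_zero (pow_ne_zero 2 (U4_ne_zero N q h)) (U2q_ne_zero N q h) this.symm

theorem h1F_ne_zero : h1F N q h ≠ 0 := by
  intro h0
  have := h1F_mul N q h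
  rw [h0, zero_mul] at this
  exact U2q_ne_zero N q h this.symm

/-! ### orders at the point places -/

theorem ord_h0F_point (h2 : nuTwo N = 0) (h3 : nuThree N = 0) (v : Place Kbar (FF N))
    (hv : 0 ≤ v.ord (jF N)) : v.ord (h0F N q h) = 0 := by
  have e := congrArg v.ord (h0F_mul N q h)
  rw [v.ord_mul (h0F_ne_zero N q h) (mul_ne_zero (U2_ne_zero N q h)
      (pow_ne_zero 2 (U4q_ne_zero N q h))),
    v.ord_mul (U2_ne_zero N q h) (pow_ne_zero 2 (U4q_ne_zero N q h)),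
    v.ord_mul (pow_ne_zero 2 (U4_ne_zero N q h)) (U2q_ne_zero N q h),
    Fermat.Agent.X0.FF.ord_pow, Fermat.Agent.X0.FF.ord_pow] at e
  have a1 : v.ord (U4 N q h) = 0 := ord_UF_point N h2 h3 _ _ v hv
  have a2 : v.ord (U2 N q h) = 0 := ord_UF_point N h2 h3 _ _ v hv
  have a3 : v.ord (U2q N q h) = 0 := ord_UF_point N h2 h3 _ _ v hv
  have a4 : v.ord (U4q N q h) = 0 := ord_UF_point N h2 h3 _ _ v hv
  rw [a1, a2, a3, a4] at e
  simpa using e

theorem ord_h1F_point (h2 : nuTwo N = 0) (h3 : nuThree N = 0) (v : Place Kbar (FF N))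
    (hv : 0 ≤ v.ord (jF N)) : v.ord (h1F N q h) = 0 := by
  have e := congrArg v.ord (h1F_mul N q h)
  rw [v.ord_mul (h1F_ne_zero N q h) (mul_ne_zero (U2_ne_zero N q h)
      (pow_ne_zero 2 (Uq_ne_zero N q h))),
    v.ord_mul (U2_ne_zero N q h) (pow_ne_zero 2 (Uq_ne_zero N q h)),
    Fermat.Agent.X0.FF.ord_pow] at e
  have a2 : v.ord (U2 N q h) = 0 := ord_UF_point N h2 h3 _ _ v hv
  have a3 : v.ord (U2q N q h) = 0 := ord_UF_point N h2 h3 _ _ v hv
  have a4 : v.ord (Uq N q h) = 0 := ord_UF_point N h2 h3 _ _ v hv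
  rw [a2, a3, a4] at e
  simpa using e

/-! ### orders of the cusp expansions -/

theorem arith_h0 (q N₀ g4 g2 gq : ℤ) (hg : (g4 = 1 ∧ g2 = 1) ∨ (g4 = 2 ∧ g2 = 2)) :
    2 * ((q * N₀) * (g4 * g4 - 4)) + (2 * N₀) * ((g2 * gq) * (g2 * gq) - 2 * q)
      - (2 * q * N₀) * (g2 * g2 - 2) - 2 * (N₀ * ((g4 * gq) * (g4 * gq) - 4 * q)) = 0 := by
  rcases hg with ⟨rfl, rfl⟩ | ⟨rfl, rfl⟩ <;> ring

theorem arith_h1 (q N₀ gq : ℤ) :
    (2 * N₀) * ((2 * gq) * (2 * gq) - 2 * q) - (2 * q * N₀) * (2 * 2 - 2)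
      - 2 * ((4 * N₀) * (gq * gq - q)) = 0 := by
  ring

variable (hq : q.Prime) (hq2 : q ≠ 2)

include hq hq2 in
theorem coprime_two_q : Nat.Coprime 2 q :=
  (Nat.coprime_primes Nat.prime_two hq).mpr (fun h => hq2 h.symm)

include hq hq2 in
theorem coprime_four_q : Nat.Coprime 4 q := by
  have := (coprime_two_q q hq hq2).pow_left 2
  simpa using this

theorem order_T_mul_eq (γ : SL(2, ℤ)) {a b c : FF N} (hb : b ≠ 0) (ha : a ≠ 0) (e : a * b = c) :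
    ((cuspData N).T γ a).order + ((cuspData N).T γ b).order = ((cuspData N).T γ c).order := by
  have hinj := ((cuspData N).T γ).injective
  rw [← e, map_mul, HahnSeries.order_mul ((map_ne_zero_iff _ hinj).mpr ha)
    ((map_ne_zero_iff _ hinj).mpr hb)]

theorem order_T_sq (γ : SL(2, ℤ)) {a : FF N} (ha : a ≠ 0) :
    ((cuspData N).T γ (a ^ 2)).order = 2 * ((cuspData N).T γ a).order := by
  have hinj := ((cuspData N).T γ).injective
  have ha' := (map_ne_zero_iff _ hinj).mpr ha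
  rw [pow_two, map_mul, HahnSeries.order_mul ha' ha']
  ring

/-- the quotients `N / δ`. -/
theorem div_values {N₀ : ℕ} (hN : N = 4 * q * N₀) :
    N / 4 = q * N₀ ∧ N / 2 = 2 * q * N₀ ∧ N / q = 4 * N₀ ∧ N / (2 * q) = 2 * N₀ ∧
      N / (4 * q) = N₀ := by
  have hqpos : 0 < q := Nat.pos_of_ne_zero (NeZero.ne q)
  refine ⟨?_, ?_, ?_, ?_, ?_⟩
  · exact Nat.div_eq_of_eq_mul_right (by norm_num) (by rw [hN]; ring)
  · exact Nat.div_eq_of_eq_mul_right (by norm_num) (by rw [hN]; ring)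
  · exact Nat.div_eq_of_eq_mul_right hqpos (by rw [hN]; ring)
  · exact Nat.div_eq_of_eq_mul_right (by positivity) (by rw [hN]; ring)
  · exact Nat.div_eq_of_eq_mul_right (by positivity) (by rw [hN])

include hq hq2 in
/-- at a cusp with `4 ∤ c` the test unit `h0F` has order `0`. -/
theorem order_T_h0F (γ : SL(2, ℤ)) (hg : Nat.gcd 4 (γ 1 0).natAbs ≠ 4) :
    ((cuspData N).T γ (h0F N q h)).order = 0 := by
  obtain ⟨N₀, hN⟩ := h
  obtain ⟨d4, d2, dq, d2q, d4q⟩ := div_values N q hN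
  have e1 := order_T_mul_eq N γ (mul_ne_zero (U2_ne_zero N q ⟨N₀, hN⟩)
    (pow_ne_zero 2 (U4q_ne_zero N q ⟨N₀, hN⟩))) (h0F_ne_zero N q ⟨N₀, hN⟩) (h0F_mul N q ⟨N₀, hN⟩)
  have e2 := order_T_mul_eq N γ (pow_ne_zero 2 (U4q_ne_zero N q ⟨N₀, hN⟩))
    (U2_ne_zero N q ⟨N₀, hN⟩) rfl
  have e3 := order_T_mul_eq N γ (U2q_ne_zero N q ⟨N₀, hN⟩)
    (pow_ne_zero 2 (U4_ne_zero N q ⟨N₀, hN⟩)) rfl
  rw [order_T_sq N γ (U4q_ne_zero N q ⟨N₀, hN⟩)] at e2
  rw [order_T_sq N γ (U4_ne_zero N q ⟨N₀, hN⟩)] at e3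
  have o4 : ((cuspData N).T γ (U4 N q ⟨N₀, hN⟩)).order = _ := order_T_UF N 4 _ γ
  have o2 : ((cuspData N).T γ (U2 N q ⟨N₀, hN⟩)).order = _ := order_T_UF N 2 _ γ
  have o2q : ((cuspData N).T γ (U2q N q ⟨N₀, hN⟩)).order = _ := order_T_UF N (2 * q) _ γ
  have o4q : ((cuspData N).T γ (U4q N q ⟨N₀, hN⟩)).order = _ := order_T_UF N (4 * q) _ γ
  rw [intGcd_natCast, d4] at o4
  rw [intGcd_natCast, d2] at o2
  rw [intGcd_natCast, d2q] at o2q
  rw [intGcd_natCast, d4q] at o4q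
  set k := (γ 1 0).natAbs with hk
  rw [gcd_two_mul q k (coprime_two_q q hq hq2)] at o2q
  rw [gcd_four_mul q k (coprime_four_q q hq hq2)] at o4q
  have hcases : ((Nat.gcd 4 k : ℤ) = 1 ∧ (Nat.gcd 2 k : ℤ) = 1) ∨
      ((Nat.gcd 4 k : ℤ) = 2 ∧ (Nat.gcd 2 k : ℤ) = 2) := by
    rw [gcd_two_eq k]
    rcases gcd_four_cases k with h1 | h1 | h1
    · left; rw [h1]; exact ⟨rfl, rfl⟩
    · right; rw [h1]; exact ⟨rfl, rfl⟩
    · exact absurd h1 hg
  have key := arith_h0 (q : ℤ) (N₀ : ℤ) (Nat.gcd 4 k : ℤ) (Nat.gcd 2 k : ℤ) (Nat.gcd q k : ℤ) hcases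
  push_cast at o4 o2 o2q o4q
  rw [o2, o4q] at e2
  rw [o4, o2q] at e3
  linarith

include hq hq2 in
/-- at a cusp with `c` even the test unit `h1F` has order `0`. -/
theorem order_T_h1F (γ : SL(2, ℤ)) (hg : Nat.gcd 4 (γ 1 0).natAbs ≠ 1) :
    ((cuspData N).T γ (h1F N q h)).order = 0 := by
  obtain ⟨N₀, hN⟩ := h
  obtain ⟨d4, d2, dq, d2q, d4q⟩ := div_values N q hN
  have e1 := order_T_mul_eq N γ (mul_ne_zero (U2_ne_zero N q ⟨N₀, hN⟩)
    (pow_ne_zero 2 (Uq_ne_zero N q ⟨N₀, hN⟩))) (h1F_ne_zero N q ⟨N₀, hN⟩) (h1F_mul N q ⟨N₀, hN⟩)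
  have e2 := order_T_mul_eq N γ (pow_ne_zero 2 (Uq_ne_zero N q ⟨N₀, hN⟩))
    (U2_ne_zero N q ⟨N₀, hN⟩) rfl
  rw [order_T_sq N γ (Uq_ne_zero N q ⟨N₀, hN⟩)] at e2
  have o2 : ((cuspData N).T γ (U2 N q ⟨N₀, hN⟩)).order = _ := order_T_UF N 2 _ γ
  have o2q : ((cuspData N).T γ (U2q N q ⟨N₀, hN⟩)).order = _ := order_T_UF N (2 * q) _ γ
  have oq : ((cuspData N).T γ (Uq N q ⟨N₀, hN⟩)).order = _ := order_T_UF N q _ γ
  rw [intGcd_natCast, d2] at o2
  rw [intGcd_natCast, d2q] at o2q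
  rw [intGcd_natCast, dq] at oq
  set k := (γ 1 0).natAbs with hk
  rw [gcd_two_mul q k (coprime_two_q q hq hq2)] at o2q
  have h2 : Nat.gcd 2 k = 2 := by
    rw [gcd_two_eq k]
    rcases gcd_four_cases k with h1 | h1 | h1
    · exact absurd h1 hg
    · rw [h1]; rfl
    · rw [h1]; rfl
  rw [h2] at o2 o2q
  have key := arith_h1 (q : ℤ) (N₀ : ℤ) (Nat.gcd q k : ℤ)
  push_cast at o2 o2q oq
  rw [o2, oq] at e2
  rw [o2q] at e1
  linarith

/-- the order of `U_4` at a cusp. -/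
theorem order_T_U4 (γ : SL(2, ℤ)) :
    ((cuspData N).T γ (U4 N q h)).order =
      ((N / 4 : ℕ) : ℤ) * ((Nat.gcd 4 (γ 1 0).natAbs : ℤ) * (Nat.gcd 4 (γ 1 0).natAbs : ℤ) - 4) := by
  have o4 : ((cuspData N).T γ (U4 N q h)).order = _ := order_T_UF N 4 _ γ
  rw [intGcd_natCast] at o4
  rw [o4]
  push_cast
  ring

include h in
theorem div_four_pos : 0 < N / 4 :=
  Nat.div_pos (Nat.le_of_dvd (Nat.pos_of_ne_zero (NeZero.ne N)) ((four_dvd_four_mul q).trans h))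
    (by norm_num)

/-! ### orders at all places -/

include hq hq2 in
/-- `h0F` is a unit at every place at which `U_4` has no zero. -/
theorem ord_h0F_of_ord_U4_nonpos (h2 : nuTwo N = 0) (h3 : nuThree N = 0)
    (v : Place Kbar (FF N)) (hv : v.ord (U4 N q h) ≤ 0) : v.ord (h0F N q h) = 0 := by
  by_cases hj : 0 ≤ v.ord (jF N)
  · exact ord_h0F_point N q h h2 h3 v hj
  have hv' : v.ord (jF N) < 0 := not_le.mp hj
  have hC := CuspGood.good (cuspData N)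
  have hcard := Degree.card_eq_finrank_adjoin N (realizeData N) (cuspData N)
  have : FiniteDimensional Kbar⟮jF N⟯ (FF N) :=
    (Degree.isGen_jF N (realizeData N) (cuspData N)).finite
  obtain ⟨g, rfl⟩ := CuspSurj.exists_cuspPlace_eq hC hcard v hv'
  obtain ⟨m, hm, hspec, -⟩ := cuspPlace_spec hC g
  have hm0 : (0 : ℤ) < m := by exact_mod_cast hm
  by_cases hg : Nat.gcd 4 ((g⁻¹ : SL(2, ℤ)) 1 0).natAbs = 4
  · exfalso
    have h1 := hspec (U4 N q h) (U4_ne_zero N q h)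
    rw [order_T_U4 N q h g⁻¹, hg] at h1
    have hpos : (0 : ℤ) < ((N / 4 : ℕ) : ℤ) := by exact_mod_cast div_four_pos N q h
    have h16 : ((4 : ℕ) : ℤ) * ((4 : ℕ) : ℤ) - 4 = 12 := by norm_num
    rw [h16] at h1
    nlinarith [mul_nonneg hm0.le (neg_nonneg.mpr hv)]
  · have h1 := hspec (h0F N q h) (h0F_ne_zero N q h)
    rw [order_T_h0F N q h hq hq2 g⁻¹ hg] at h1
    rcases mul_eq_zero.mp h1.symm with h0 | h0
    · exact absurd h0 hm0.ne'
    · exact h0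

include hq hq2 in
/-- `h1F` is a unit at every place at which `U_4` has no pole. -/
theorem ord_h1F_of_ord_U4_nonneg (h2 : nuTwo N = 0) (h3 : nuThree N = 0)
    (v : Place Kbar (FF N)) (hv : 0 ≤ v.ord (U4 N q h)) : v.ord (h1F N q h) = 0 := by
  by_cases hj : 0 ≤ v.ord (jF N)
  · exact ord_h1F_point N q h h2 h3 v hj
  have hv' : v.ord (jF N) < 0 := not_le.mp hj
  have hC := CuspGood.good (cuspData N)
  have hcard := Degree.card_eq_finrank_adjoin N (realizeData N) (cuspData N)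
  have : FiniteDimensional Kbar⟮jF N⟯ (FF N) :=
    (Degree.isGen_jF N (realizeData N) (cuspData N)).finite
  obtain ⟨g, rfl⟩ := CuspSurj.exists_cuspPlace_eq hC hcard v hv'
  obtain ⟨m, hm, hspec, -⟩ := cuspPlace_spec hC g
  have hm0 : (0 : ℤ) < m := by exact_mod_cast hm
  by_cases hg : Nat.gcd 4 ((g⁻¹ : SL(2, ℤ)) 1 0).natAbs = 1
  · exfalso
    have h1 := hspec (U4 N q h) (U4_ne_zero N q h)
    rw [order_T_U4 N q h g⁻¹, hg] at h1
    have hpos : (0 : ℤ) < ((N / 4 : ℕ) : ℤ) := by exact_mod_cast div_four_pos N q h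
    have h16 : ((1 : ℕ) : ℤ) * ((1 : ℕ) : ℤ) - 4 = -3 := by norm_num
    rw [h16] at h1
    nlinarith [mul_nonneg hm0.le hv]
  · have h1 := hspec (h1F N q h) (h1F_ne_zero N q h)
    rw [order_T_h1F N q h hq hq2 g⁻¹ hg] at h1
    rcases mul_eq_zero.mp h1.symm with h0 | h0
    · exact absurd h0 hm0.ne'
    · exact h0

/-! ### the Hauptmodul -/

variable (ht : TMem 4 8 N)

/-- `t³ U_4 = 1`. -/
theorem tF_pow_mul_U4 : tF N ht ^ 3 * U4 N q h = 1 :=
  Subtype.ext (tq_pow_mul_uq Kbar 4 8 rfl)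

include h in
theorem tF_ne_zero' : tF N ht ≠ 0 := by
  intro h0
  have := tF_pow_mul_U4 N q h ht
  rw [h0] at this
  simp at this

theorem ord_tF_U4 (v : Place Kbar (FF N)) : 3 * v.ord (tF N ht) + v.ord (U4 N q h) = 0 := by
  have e := congrArg v.ord (tF_pow_mul_U4 N q h ht)
  rw [v.ord_mul (pow_ne_zero 3 (tF_ne_zero' N q h ht)) (U4_ne_zero N q h),
    Fermat.Agent.X0.FF.ord_pow] at e
  simpa using e

include hq hq2 in
/-- **`h0F` is a unit at every place at which `t` is finite.** -/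
theorem ord_h0F_eq_zero (h2 : nuTwo N = 0) (h3 : nuThree N = 0) (v : Place Kbar (FF N))
    (hv : tF N ht ∈ v.toValuationSubring) : v.ord (h0F N q h) = 0 := by
  apply ord_h0F_of_ord_U4_nonpos N q h hq hq2 h2 h3 v
  have h1 := ord_nonneg_of_mem v hv
  have h2' := ord_tF_U4 N q h ht v
  omega

include hq hq2 in
/-- **`h1F` is a unit at every place at which `t⁻¹` is finite.** -/
theorem ord_h1F_eq_zero (h2 : nuTwo N = 0) (h3 : nuThree N = 0) (v : Place Kbar (FF N))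
    (hv : (tF N ht)⁻¹ ∈ v.toValuationSubring) : v.ord (h1F N q h) = 0 := by
  apply ord_h1F_of_ord_U4_nonneg N q h hq hq2 h2 h3 v
  have h1 := ord_nonneg_of_mem v hv
  rw [v.ord_inv] at h1
  have h2' := ord_tF_U4 N q h ht v
  omega

/-! ### integrality over `ℚbar[t]`, `ℚbar[t⁻¹]` -/

open Fermat.Agent.RED.PUR.PlaceIntegral3 in
include hq hq2 in
theorem h0F_mem_intRing (h2 : nuTwo N = 0) (h3 : nuThree N = 0) :
    h0F N q h ∈ intRing Kbar (tF N ht) ∧ (h0F N q h)⁻¹ ∈ intRing Kbar (tF N ht) := by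
  have hgen : IsGen Kbar (tF N ht) := Fermat.Agent.RED.BASE.TGen19.isGen_tF 4 8 N ht
  constructor
  · apply mem_intRing_of_forall_place hgen
    intro v hv
    apply mem_of_ord_nonneg
    rw [ord_h0F_eq_zero N q h hq hq2 ht h2 h3 v hv]
  · apply mem_intRing_of_forall_place hgen
    intro v hv
    apply mem_of_ord_nonneg
    rw [v.ord_inv, ord_h0F_eq_zero N q h hq hq2 ht h2 h3 v hv]
    simp

open Fermat.Agent.RED.PUR.PlaceIntegral3 in
include hq hq2 in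
theorem h1F_mem_intRing (h2 : nuTwo N = 0) (h3 : nuThree N = 0) :
    h1F N q h ∈ intRing Kbar (tF N ht)⁻¹ ∧ (h1F N q h)⁻¹ ∈ intRing Kbar (tF N ht)⁻¹ := by
  have hgen : IsGen Kbar (tF N ht)⁻¹ := (Fermat.Agent.RED.BASE.TGen19.isGen_tF 4 8 N ht).inv
  constructor
  · apply mem_intRing_of_forall_place hgen
    intro v hv
    apply mem_of_ord_nonneg
    rw [ord_h1F_eq_zero N q h hq hq2 ht h2 h3 v hv]
  · apply mem_intRing_of_forall_place hgen
    intro v hv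
    apply mem_of_ord_nonneg
    rw [v.ord_inv, ord_h1F_eq_zero N q h hq hq2 ht h2 h3 v hv]
    simp

end Units

end Fermat.Agent.T1B.TestElt79
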