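/-
Programme T1B, brick F2' (helper79), part 3: **the test units as formal `q`-series over any ring**, their
integrality over `K[t]`, `K[t⁻¹]` for every subfield `K ⊂ ℚbar`, and membership in `FK N K`.

* `h0S R q = U_4² U_{2q} / (U_2 U_{4q}²)`, `h0Sinv R q` its inverse, `h1S R q = U_{2q}/(U_2 U_q²)`,
  `h1Sinv R q`, for any commutative ring `R` (integer coefficients), compatible with `coeffMap`;
* `isIntegral_h0S`, `isIntegral_h0Sinv` : integral over `K[tq K 4 8]`;
  `isIntegral_h1S`, `isIntegral_h1Sinv` : integral over `K[(tq K 4 8)⁻¹]`;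
* `uq_mem_FK`, `uqInv_mem_FK`, `h0S_mem_FK`, … : membership in `FK N K`, `4 q ∣ N`.
-/
import Mathlib
import Fermat.Agent.T1B.TestElt79.EtaTest
import Fermat.Agent.ES.N34.ModEq23
import Fermat.Agent.ES.P36.CoeffField4

set_option autoImplicit false
set_option linter.unusedSectionVars false

open ModularCurve HahnSeries
open scoped IntermediateField

noncomputable section

namespace Fermat.Agent.T1B.TestElt79

open Fermat.Agent.X0 Fermat.Agent.RED.Interface4
open Fermat.Agent.RED.BASE.EtaQuot12 Fermat.Agent.RED.BASE.Interface12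
open Fermat.Agent.RED.BASE.Hauptmodul12
open Fermat.Agent.IG.PR.Interface20 Fermat.Agent.IG.AN.DeltaAffine11
open Fermat.Agent.RED.BASE.DeltaMem19

/-! ### the formal series -/

section Formal

variable (R : Type*) [CommRing R] (q : ℕ) [NeZero q]

/-- `U_4² U_{2q} / (U_2 U_{4q}²)` as a formal series. -/
def h0S : LaurentSeries R :=
  uq R 4 ^ 2 * uq R (2 * q) * (uqInv 2 R * uqInv (4 * q) R ^ 2)

/-- the inverse of `h0S`. -/
def h0Sinv : LaurentSeries R :=
  uqInv 4 R ^ 2 * uqInv (2 * q) R * (uq R 2 * uq R (4 * q) ^ 2)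

/-- `U_{2q} / (U_2 U_q²)` as a formal series. -/
def h1S : LaurentSeries R := uq R (2 * q) * (uqInv 2 R * uqInv q R ^ 2)

/-- the inverse of `h1S`. -/
def h1Sinv : LaurentSeries R := uqInv (2 * q) R * (uq R 2 * uq R q ^ 2)

theorem h0S_mul_h0Sinv : h0S R q * h0Sinv R q = 1 := by
  have e1 := uqInv_mul_uq 4 R
  have e2 := uqInv_mul_uq 2 R
  have e3 := uqInv_mul_uq (2 * q) R
  have e4 := uqInv_mul_uq (4 * q) R
  unfold h0S h0Sinv
  calc uq R 4 ^ 2 * uq R (2 * q) * (uqInv 2 R * uqInv (4 * q) R ^ 2) *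
        (uqInv 4 R ^ 2 * uqInv (2 * q) R * (uq R 2 * uq R (4 * q) ^ 2))
      = (uqInv 4 R * uq R 4) ^ 2 * (uqInv (2 * q) R * uq R (2 * q)) * (uqInv 2 R * uq R 2) *
          (uqInv (4 * q) R * uq R (4 * q)) ^ 2 := by ring
    _ = 1 := by rw [e1, e2, e3, e4]; ring

theorem h1S_mul_h1Sinv : h1S R q * h1Sinv R q = 1 := by
  have e2 := uqInv_mul_uq 2 R
  have e3 := uqInv_mul_uq (2 * q) R
  have e4 := uqInv_mul_uq q R
  unfold h1S h1Sinv
  calc uq R (2 * q) * (uqInv 2 R * uqInv q R ^ 2) * (uqInv (2 * q) R * (uq R 2 * uq R q ^ 2))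
      = (uqInv (2 * q) R * uq R (2 * q)) * (uqInv 2 R * uq R 2) * (uqInv q R * uq R q) ^ 2 := by
        ring
    _ = 1 := by rw [e2, e3, e4]; ring

variable {R} {S : Type*} [CommRing S] (φ : R →+* S)

theorem coeffMap_h0S : coeffMap φ (h0S R q) = h0S S q := by
  simp only [h0S, map_mul, map_pow, coeffMap_uq, coeffMap_uqInv]

theorem coeffMap_h0Sinv : coeffMap φ (h0Sinv R q) = h0Sinv S q := by
  simp only [h0Sinv, map_mul, map_pow, coeffMap_uq, coeffMap_uqInv]

theorem coeffMap_h1S : coeffMap φ (h1S R q) = h1S S q := by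
  simp only [h1S, map_mul, map_pow, coeffMap_uq, coeffMap_uqInv]

theorem coeffMap_h1Sinv : coeffMap φ (h1Sinv R q) = h1Sinv S q := by
  simp only [h1Sinv, map_mul, map_pow, coeffMap_uq, coeffMap_uqInv]

end Formal

/-! ### the link with the elements of `FF N` -/

section Link

variable (N q : ℕ) [NeZero N] [NeZero q] (h : 4 * q ∣ N)

theorem coe_h0F : ((h0F N q h : FF N) : LaurentSeries Kbar) = h0S Kbar q := by
  have e : h0F N q h = UF N 4 ((four_dvd_four_mul q).trans h) ^ 2 *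
      UF N (2 * q) ((two_mul_dvd_four_mul q).trans h) *
      (UFinv N 2 ((two_dvd_four_mul q).trans h) * UFinv N (4 * q) h ^ 2) := by
    rw [UFinv_eq_inv, UFinv_eq_inv]
    rfl
  rw [e]
  rfl

theorem coe_h1F : ((h1F N q h : FF N) : LaurentSeries Kbar) = h1S Kbar q := by
  have e : h1F N q h = UF N (2 * q) ((two_mul_dvd_four_mul q).trans h) *
      (UFinv N 2 ((two_dvd_four_mul q).trans h) *
        UFinv N q ((q_dvd_four_mul q).trans h) ^ 2) := by
    rw [UFinv_eq_inv, UFinv_eq_inv]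
    rfl
  rw [e]
  rfl

theorem h0Sinv_eq_inv (K : Type*) [Field K] : h0Sinv K q = (h0S K q)⁻¹ :=
  eq_inv_of_mul_eq_one_right (h0S_mul_h0Sinv K q)

theorem h1Sinv_eq_inv (K : Type*) [Field K] : h1Sinv K q = (h1S K q)⁻¹ :=
  eq_inv_of_mul_eq_one_right (h1S_mul_h1Sinv K q)

end Link

/-! ### integrality over `ℚbar[t]`, `ℚbar[t⁻¹]` (series form) -/

section BarIntegral

open Fermat.Agent.ES.N34.ModEqBar23 Fermat.Agent.RED.BASE.NoElliptic14

variable (q : ℕ) [NeZero q] (hq : q.Prime) (hq2 : q ≠ 2)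

include hq hq2 in
theorem isIntegral_h0S_bar :
    IsIntegral (Algebra.adjoin Kbar {tK 4 8}) (h0S Kbar q) ∧
      IsIntegral (Algebra.adjoin Kbar {tK 4 8}) (h0Sinv Kbar q) := by
  have h : 4 * q ∣ 4 * q := dvd_rfl
  have h4 : 4 ∣ 4 * q := four_dvd_four_mul q
  have ht : TMem 4 8 (4 * q) := tMem_of_dvd baseHyp_four h4
  obtain ⟨a, b⟩ := h0F_mem_intRing (4 * q) q h hq hq2 ht (nuTwo_eq_zero_of_four_dvd h4)
    (nuThree_eq_zero_of_four_dvd h4)
  have a' := isIntegral_adjoin_map (modularFunctionFieldBar (4 * q)).val a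
  have b' := isIntegral_adjoin_map (modularFunctionFieldBar (4 * q)).val b
  have e1 : (modularFunctionFieldBar (4 * q)).val (tF (4 * q) ht) = tK 4 8 := rfl
  have e2 : (modularFunctionFieldBar (4 * q)).val (h0F (4 * q) q h) = h0S Kbar q :=
    coe_h0F (4 * q) q h
  have e3 : (modularFunctionFieldBar (4 * q)).val (h0F (4 * q) q h)⁻¹ = h0Sinv Kbar q := by
    rw [map_inv₀, e2, h0Sinv_eq_inv]
  rw [e1, e2] at a'
  rw [e1, e3] at b'
  exact ⟨a', b'⟩

include hq hq2 in
theorem isIntegral_h1S_bar :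
    IsIntegral (Algebra.adjoin Kbar {(tK 4 8)⁻¹}) (h1S Kbar q) ∧
      IsIntegral (Algebra.adjoin Kbar {(tK 4 8)⁻¹}) (h1Sinv Kbar q) := by
  have h : 4 * q ∣ 4 * q := dvd_rfl
  have h4 : 4 ∣ 4 * q := four_dvd_four_mul q
  have ht : TMem 4 8 (4 * q) := tMem_of_dvd baseHyp_four h4
  obtain ⟨a, b⟩ := h1F_mem_intRing (4 * q) q h hq hq2 ht (nuTwo_eq_zero_of_four_dvd h4)
    (nuThree_eq_zero_of_four_dvd h4)
  have a' := isIntegral_adjoin_map (modularFunctionFieldBar (4 * q)).val a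
  have b' := isIntegral_adjoin_map (modularFunctionFieldBar (4 * q)).val b
  have e1 : (modularFunctionFieldBar (4 * q)).val (tF (4 * q) ht)⁻¹ = (tK 4 8)⁻¹ := by
    rw [map_inv₀]; rfl
  have e2 : (modularFunctionFieldBar (4 * q)).val (h1F (4 * q) q h) = h1S Kbar q :=
    coe_h1F (4 * q) q h
  have e3 : (modularFunctionFieldBar (4 * q)).val (h1F (4 * q) q h)⁻¹ = h1Sinv Kbar q := by
    rw [map_inv₀, e2, h1Sinv_eq_inv]
  rw [e1, e2] at a'
  rw [e1, e3] at b'
  exact ⟨a', b'⟩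

end BarIntegral

/-! ### descent to `K` -/

section KIntegral

open Fermat.Agent.ES.N34.ModEq23

variable (K : IntermediateField ℚ Qbar) (q : ℕ) [NeZero q] (hq : q.Prime) (hq2 : q ≠ 2)

include hq hq2 in
theorem isIntegral_h0S : IsIntegral (Algebra.adjoin K {tq K 4 8}) (h0S K q) := by
  apply descend
  rw [coeffMap_h0S, coeffMap_tq]
  exact (isIntegral_h0S_bar q hq hq2).1

include hq hq2 in
theorem isIntegral_h0Sinv : IsIntegral (Algebra.adjoin K {tq K 4 8}) (h0Sinv K q) := by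
  apply descend
  rw [coeffMap_h0Sinv, coeffMap_tq]
  exact (isIntegral_h0S_bar q hq hq2).2

include hq hq2 in
theorem isIntegral_h1S : IsIntegral (Algebra.adjoin K {(tq K 4 8)⁻¹}) (h1S K q) := by
  apply descend
  rw [coeffMap_h1S, map_inv₀, coeffMap_tq]
  exact (isIntegral_h1S_bar q hq hq2).1

include hq hq2 in
theorem isIntegral_h1Sinv : IsIntegral (Algebra.adjoin K {(tq K 4 8)⁻¹}) (h1Sinv K q) := by
  apply descend
  rw [coeffMap_h1Sinv, map_inv₀, coeffMap_tq]
  exact (isIntegral_h1S_bar q hq hq2).2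

end KIntegral

/-! ### membership in `FK N K` -/

section Mem

open Fermat.Agent.ES.P36.CoeffField4

variable (N : ℕ) [NeZero N] (K : IntermediateField ℚ Qbar)

theorem uq_mem_FK (δ : ℕ) [NeZero δ] (h : δ ∣ N) : uq ↥K δ ∈ FK N K := by
  have := algebraic_Qbar_over4 K
  apply mem_of_coeffMap_mem (K₁ := Qbar) (modularFunctionFieldFull N)
  rw [coeffMap_uq]
  exact uq_mem δ h

theorem uqInv_mem_FK (δ : ℕ) [NeZero δ] (h : δ ∣ N) : uqInv δ ↥K ∈ FK N K := by
  have := algebraic_Qbar_over4 K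
  apply mem_of_coeffMap_mem (K₁ := Qbar) (modularFunctionFieldFull N)
  rw [coeffMap_uqInv]
  exact uqInv_mem δ h

variable (q : ℕ) [NeZero q] (h : 4 * q ∣ N)

include h in
theorem h0S_mem_FK : h0S ↥K q ∈ FK N K :=
  mul_mem (mul_mem (pow_mem (uq_mem_FK N K 4 ((four_dvd_four_mul q).trans h)) 2)
    (uq_mem_FK N K (2 * q) ((two_mul_dvd_four_mul q).trans h)))
    (mul_mem (uqInv_mem_FK N K 2 ((two_dvd_four_mul q).trans h))
      (pow_mem (uqInv_mem_FK N K (4 * q) h) 2))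

include h in
theorem h0Sinv_mem_FK : h0Sinv ↥K q ∈ FK N K :=
  mul_mem (mul_mem (pow_mem (uqInv_mem_FK N K 4 ((four_dvd_four_mul q).trans h)) 2)
    (uqInv_mem_FK N K (2 * q) ((two_mul_dvd_four_mul q).trans h)))
    (mul_mem (uq_mem_FK N K 2 ((two_dvd_four_mul q).trans h))
      (pow_mem (uq_mem_FK N K (4 * q) h) 2))

include h in
theorem h1S_mem_FK : h1S ↥K q ∈ FK N K :=
  mul_mem (uq_mem_FK N K (2 * q) ((two_mul_dvd_four_mul q).trans h))
    (mul_mem (uqInv_mem_FK N K 2 ((two_dvd_four_mul q).trans h))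
      (pow_mem (uqInv_mem_FK N K q ((q_dvd_four_mul q).trans h)) 2))

include h in
theorem h1Sinv_mem_FK : h1Sinv ↥K q ∈ FK N K :=
  mul_mem (uqInv_mem_FK N K (2 * q) ((two_mul_dvd_four_mul q).trans h))
    (mul_mem (uq_mem_FK N K 2 ((two_dvd_four_mul q).trans h))
      (pow_mem (uq_mem_FK N K q ((q_dvd_four_mul q).trans h)) 2))

end Mem

end Fermat.Agent.T1B.TestElt79
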