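/-
Programme T1B, brick F2' (helper79), part 4: **the Fricke expansions of the test units**.

Level `N = 4 q N₀`.  `W_N U_δ = δ⁻¹² U_{N/δ} / U_N`, i.e. in `q`-expansions
`τ_S (U_δ) = δ⁻¹² · (Δ(q)/Δ(q^δ))(q^{N/δ})`; hence

* `tauS_h0F : τ_S (h0F) = q¹² · W0S`,  `tauS_h1F : τ_S (h1F) = q¹² · W1S`,

with `W0S R q N₀`, `W1S R q N₀` formal series with integer coefficients (defined over every ring `R`,
invertible: `W0S * W0Sinv = 1`), and the same over every subfield `K ⊂ ℚbar`: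

* `iotaTwo_h0K`, `iotaTwo_h1K` : `iotaTwo N K (h_i) = C (q¹²) * W_iS K q N₀`.
-/
import Mathlib
import Fermat.Agent.T1B.TestElt79.Series
import Fermat.Agent.ES.N34.FrickeFK8
import Fermat.Agent.ES.N34.ModEqBar23

set_option autoImplicit false
set_option linter.unusedSectionVars false

open ModularCurve HahnSeries
open scoped IntermediateField MatrixGroups

noncomputable section

namespace Fermat.Agent.T1B.TestElt79

open Fermat.Agent.X0 Fermat.Agent.RED.Interface4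
open Fermat.Agent.RED.BASE.EtaQuot12 Fermat.Agent.RED.BASE.Interface12
open Fermat.Agent.RED.BASE.Hauptmodul12
open Fermat.Agent.IG.PR.Interface20 Fermat.Agent.IG.AN.DeltaAffine11
open Fermat.Agent.RED.BASE.DeltaMem19 Fermat.Agent.RED.BASE.QExpMem19
open Fermat.Agent.RED.BASE.CuspExpMain11 Fermat.Agent.RED.BASE.CuspExpLevel11
open Fermat.Agent.RED.LVL.FrickeExp17 Fermat.Agent.ES.N34.FrickeFK8

/-! ### the formal Fricke images -/

section FormalW

variable (R : Type*) [CommRing R] (q N₀ : ℕ) [NeZero q] [NeZero N₀]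

/-- `(Δ(q)/Δ(q^δ))(q^c)`. -/
def wU (δ c : ℕ) [NeZero δ] [NeZero c] : LaurentSeries R := qExpand R c (uqInv δ R)

/-- `(Δ(q^δ)/Δ(q))(q^c)`. -/
def wUinv (δ c : ℕ) [NeZero δ] [NeZero c] : LaurentSeries R := qExpand R c (uq R δ)

theorem wU_mul_wUinv (δ c : ℕ) [NeZero δ] [NeZero c] : wU R δ c * wUinv R δ c = 1 := by
  rw [wU, wUinv, ← map_mul, uqInv_mul_uq, map_one]

/-- the Fricke image of `h0S`, up to the constant `q¹²`. -/
def W0S : LaurentSeries R :=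
  wU R 4 (q * N₀) ^ 2 * wU R (2 * q) (2 * N₀) * (wUinv R 2 (2 * q * N₀) * wUinv R (4 * q) N₀ ^ 2)

/-- the inverse of `W0S`. -/
def W0Sinv : LaurentSeries R :=
  wUinv R 4 (q * N₀) ^ 2 * wUinv R (2 * q) (2 * N₀) * (wU R 2 (2 * q * N₀) * wU R (4 * q) N₀ ^ 2)

/-- the Fricke image of `h1S`, up to the constant `q¹²`. -/
def W1S : LaurentSeries R :=
  wU R (2 * q) (2 * N₀) * (wUinv R 2 (2 * q * N₀) * wUinv R q (4 * N₀) ^ 2)

/-- the inverse of `W1S`. -/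
def W1Sinv : LaurentSeries R :=
  wUinv R (2 * q) (2 * N₀) * (wU R 2 (2 * q * N₀) * wU R q (4 * N₀) ^ 2)

theorem W0S_mul_W0Sinv : W0S R q N₀ * W0Sinv R q N₀ = 1 := by
  have e1 := wU_mul_wUinv R 4 (q * N₀)
  have e2 := wU_mul_wUinv R (2 * q) (2 * N₀)
  have e3 := wU_mul_wUinv R 2 (2 * q * N₀)
  have e4 := wU_mul_wUinv R (4 * q) N₀
  unfold W0S W0Sinv
  calc _ = (wU R 4 (q * N₀) * wUinv R 4 (q * N₀)) ^ 2 *
        (wU R (2 * q) (2 * N₀) * wUinv R (2 * q) (2 * N₀)) *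
        (wU R 2 (2 * q * N₀) * wUinv R 2 (2 * q * N₀)) *
        (wU R (4 * q) N₀ * wUinv R (4 * q) N₀) ^ 2 := by ring
    _ = 1 := by rw [e1, e2, e3, e4]; ring

theorem W1S_mul_W1Sinv : W1S R q N₀ * W1Sinv R q N₀ = 1 := by
  have e2 := wU_mul_wUinv R (2 * q) (2 * N₀)
  have e3 := wU_mul_wUinv R 2 (2 * q * N₀)
  have e4 := wU_mul_wUinv R q (4 * N₀)
  unfold W1S W1Sinv
  calc _ = (wU R (2 * q) (2 * N₀) * wUinv R (2 * q) (2 * N₀)) *
        (wU R 2 (2 * q * N₀) * wUinv R 2 (2 * q * N₀)) *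
        (wU R q (4 * N₀) * wUinv R q (4 * N₀)) ^ 2 := by ring
    _ = 1 := by rw [e2, e3, e4]; ring

variable {R} {S : Type*} [CommRing S] (φ : R →+* S)

theorem coeffMap_wU (δ c : ℕ) [NeZero δ] [NeZero c] : coeffMap φ (wU R δ c) = wU S δ c := by
  rw [wU, wU, ModularCurve.coeffMap_qExpand, coeffMap_uqInv]

theorem coeffMap_wUinv (δ c : ℕ) [NeZero δ] [NeZero c] :
    coeffMap φ (wUinv R δ c) = wUinv S δ c := by
  rw [wUinv, wUinv, ModularCurve.coeffMap_qExpand, coeffMap_uq]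

theorem coeffMap_W0S : coeffMap φ (W0S R q N₀) = W0S S q N₀ := by
  simp only [W0S, map_mul, map_pow, coeffMap_wU, coeffMap_wUinv]

theorem coeffMap_W0Sinv : coeffMap φ (W0Sinv R q N₀) = W0Sinv S q N₀ := by
  simp only [W0Sinv, map_mul, map_pow, coeffMap_wU, coeffMap_wUinv]

theorem coeffMap_W1S : coeffMap φ (W1S R q N₀) = W1S S q N₀ := by
  simp only [W1S, map_mul, map_pow, coeffMap_wU, coeffMap_wUinv]

theorem coeffMap_W1Sinv : coeffMap φ (W1Sinv R q N₀) = W1Sinv S q N₀ := by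
  simp only [W1Sinv, map_mul, map_pow, coeffMap_wU, coeffMap_wUinv]

theorem coeffMap_C_aux (r : R) :
    coeffMap φ (HahnSeries.C r : LaurentSeries R) = HahnSeries.C (φ r) := by
  rw [HahnSeries.C_apply, HahnSeries.C_apply, coeffMap_single]

theorem coeffMap_injective_aux (hφ : Function.Injective φ) :
    Function.Injective (coeffMap φ : LaurentSeries R → LaurentSeries S) := by
  intro x y h
  ext n
  apply hφ
  have := congrArg (fun s : LaurentSeries S => s.coeff n) h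
  simpa [coeffMap] using this

end FormalW

/-! ### the Fricke expansion of `U_δ` over `ℚbar` -/

section Bar

variable (N : ℕ) [NeZero N]

/-- `τ_S (U_δ) = δ⁻¹² (Δ(q)/Δ(q^δ))(q^c)`, `N = δ c`. -/
theorem tauS_UF (δ c : ℕ) [NeZero δ] [NeZero c] (hc : N = δ * c) (h : δ ∣ N) :
    tauS N (UF N δ h) = HahnSeries.C (((δ : Kbar)⁻¹) ^ 12) * wU Kbar δ c := by
  subst hc
  have hu : (cuspData δ).T ModularGroup.S (uF δ) =
      HahnSeries.C (((δ : Kbar)⁻¹) ^ 12) * uqInv δ Kbar :=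
    T_eq_of_isNice (isNice_uq δ) ModularGroup.S _
      (Fermat.Agent.ES.N34.ModEqBar23.intgQN_compSL_deltaQuot_S δ)
  show (cuspData (δ * c)).T ModularGroup.S (inclFF h (uF δ)) = _
  rw [T_inclFF c ModularGroup.S (uF δ), hu, map_mul, qExpand_C, wU]

theorem tauS_ne_zero {f : FF N} (hf : f ≠ 0) : tauS N f ≠ 0 :=
  (map_ne_zero_iff _ (tauS N).injective).mpr hf

theorem solve_frac0 {L : Type*} [CommRing L] {X c2 d2 c4q d4q c4 c2q w2 w2' w4q w4q' w4 w2q : L}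
    (hX : X * ((c2 * w2) * (c4q * w4q) ^ 2) = (c4 * w4) ^ 2 * (c2q * w2q))
    (h2 : w2 * w2' = 1) (h4q : w4q * w4q' = 1) (hc2 : c2 * d2 = 1) (hc4q : c4q * d4q = 1) :
    X = (c4 ^ 2 * c2q * d2 * d4q ^ 2) * (w4 ^ 2 * w2q * (w2' * w4q' ^ 2)) := by
  have hP : ((c2 * w2) * (c4q * w4q) ^ 2) * ((d2 * w2') * (d4q * w4q') ^ 2) = 1 := by
    calc _ = (c2 * d2) * (w2 * w2') * ((c4q * d4q) * (w4q * w4q')) ^ 2 := by ring
      _ = 1 := by rw [h2, h4q, hc2, hc4q]; ring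
  calc X = X * (((c2 * w2) * (c4q * w4q) ^ 2) * ((d2 * w2') * (d4q * w4q') ^ 2)) := by
        rw [hP, mul_one]
    _ = (X * ((c2 * w2) * (c4q * w4q) ^ 2)) * ((d2 * w2') * (d4q * w4q') ^ 2) := by ring
    _ = ((c4 * w4) ^ 2 * (c2q * w2q)) * ((d2 * w2') * (d4q * w4q') ^ 2) := by rw [hX]
    _ = _ := by ring

theorem solve_frac1 {L : Type*} [CommRing L] {X c2 d2 cq dq c2q w2 w2' wq wq' w2q : L}
    (hX : X * ((c2 * w2) * (cq * wq) ^ 2) = c2q * w2q)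
    (h2 : w2 * w2' = 1) (hq : wq * wq' = 1) (hc2 : c2 * d2 = 1) (hcq : cq * dq = 1) :
    X = (c2q * d2 * dq ^ 2) * (w2q * (w2' * wq' ^ 2)) := by
  have hP : ((c2 * w2) * (cq * wq) ^ 2) * ((d2 * w2') * (dq * wq') ^ 2) = 1 := by
    calc _ = (c2 * d2) * (w2 * w2') * ((cq * dq) * (wq * wq')) ^ 2 := by ring
      _ = 1 := by rw [h2, hq, hc2, hcq]; ring
  calc X = X * (((c2 * w2) * (cq * wq) ^ 2) * ((d2 * w2') * (dq * wq') ^ 2)) := by
        rw [hP, mul_one]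
    _ = (X * ((c2 * w2) * (cq * wq) ^ 2)) * ((d2 * w2') * (dq * wq') ^ 2) := by ring
    _ = (c2q * w2q) * ((d2 * w2') * (dq * wq') ^ 2) := by rw [hX]
    _ = _ := by ring

theorem const0 {L : Type*} [Field L] (x : L) (hx : x ≠ 0) (h2 : (2 : L) ≠ 0) :
    (((4 : L)⁻¹) ^ 12) ^ 2 * (((2 * x)⁻¹)) ^ 12 * 2 ^ 12 * ((4 * x) ^ 12) ^ 2 = x ^ 12 := by
  have h4 : (4 : L) ≠ 0 := by
    have : (4 : L) = 2 * 2 := by norm_num
    rw [this]; exact mul_ne_zero h2 h2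
  have inner : ((4 : L)⁻¹) ^ 2 * (2 * x)⁻¹ * 2 * (4 * x) ^ 2 = x := by
    field_simp
  calc (((4 : L)⁻¹) ^ 12) ^ 2 * (((2 * x)⁻¹)) ^ 12 * 2 ^ 12 * ((4 * x) ^ 12) ^ 2
      = (((4 : L)⁻¹) ^ 2 * (2 * x)⁻¹ * 2 * (4 * x) ^ 2) ^ 12 := by ring
    _ = x ^ 12 := by rw [inner]

theorem const1 {L : Type*} [Field L] (x : L) (hx : x ≠ 0) (h2 : (2 : L) ≠ 0) :
    (((2 * x)⁻¹)) ^ 12 * 2 ^ 12 * (x ^ 12) ^ 2 = x ^ 12 := by
  have inner : (2 * x)⁻¹ * 2 * x ^ 2 = x := by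
    field_simp
  calc (((2 * x)⁻¹)) ^ 12 * 2 ^ 12 * (x ^ 12) ^ 2
      = ((2 * x)⁻¹ * 2 * x ^ 2) ^ 12 := by ring
    _ = x ^ 12 := by rw [inner]

variable (q N₀ : ℕ) [NeZero q] [NeZero N₀]

theorem C_inv_mul (δ : ℕ) [NeZero δ] :
    (HahnSeries.C (((δ : Kbar)⁻¹) ^ 12) : LaurentSeries Kbar) * HahnSeries.C ((δ : Kbar) ^ 12) = 1 := by
  have hδ : (δ : Kbar) ≠ 0 := by exact_mod_cast NeZero.ne δ
  rw [← map_mul, ← mul_pow, inv_mul_cancel₀ hδ, one_pow, map_one]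

/-- **the Fricke expansion of `h0F`**: `q¹²` times a series with integer coefficients. -/
theorem tauS_h0F (hN : N = 4 * q * N₀) (h : 4 * q ∣ N) :
    tauS N (h0F N q h) = HahnSeries.C ((q : Kbar) ^ 12) * W0S Kbar q N₀ := by
  have e := congrArg (tauS N) (h0F_mul N q h)
  rw [map_mul, map_mul, map_mul, map_pow, map_pow] at e
  have t4 : tauS N (U4 N q h) = _ := tauS_UF N 4 (q * N₀) (by rw [hN]; ring) _
  have t2 : tauS N (U2 N q h) = _ := tauS_UF N 2 (2 * q * N₀) (by rw [hN]; ring) _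
  have t2q : tauS N (U2q N q h) = _ := tauS_UF N (2 * q) (2 * N₀) (by rw [hN]; ring) _
  have t4q : tauS N (U4q N q h) = _ := tauS_UF N (4 * q) N₀ hN _
  rw [t4, t2, t2q, t4q] at e
  have key := solve_frac0 e (wU_mul_wUinv Kbar 2 (2 * q * N₀)) (wU_mul_wUinv Kbar (4 * q) N₀)
    (C_inv_mul 2) (C_inv_mul (4 * q))
  have hq0 : (q : Kbar) ≠ 0 := by exact_mod_cast NeZero.ne q
  have hconst : (HahnSeries.C ((((4 : ℕ) : Kbar)⁻¹) ^ 12) : LaurentSeries Kbar) ^ 2 *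
      HahnSeries.C ((((2 * q : ℕ) : Kbar)⁻¹) ^ 12) * HahnSeries.C (((2 : ℕ) : Kbar) ^ 12) *
      HahnSeries.C (((4 * q : ℕ) : Kbar) ^ 12) ^ 2 = HahnSeries.C ((q : Kbar) ^ 12) := by
    rw [← map_pow, ← map_pow, ← map_mul, ← map_mul, ← map_mul]
    apply congrArg
    push_cast
    exact const0 (q : Kbar) hq0 two_ne_zero
  rw [key, hconst]
  rfl

/-- **the Fricke expansion of `h1F`**: `q¹²` times a series with integer coefficients. -/
theorem tauS_h1F (hN : N = 4 * q * N₀) (h : 4 * q ∣ N) :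
    tauS N (h1F N q h) = HahnSeries.C ((q : Kbar) ^ 12) * W1S Kbar q N₀ := by
  have e := congrArg (tauS N) (h1F_mul N q h)
  rw [map_mul, map_mul, map_pow] at e
  have t2 : tauS N (U2 N q h) = _ := tauS_UF N 2 (2 * q * N₀) (by rw [hN]; ring) _
  have t2q : tauS N (U2q N q h) = _ := tauS_UF N (2 * q) (2 * N₀) (by rw [hN]; ring) _
  have tq : tauS N (Uq N q h) = _ := tauS_UF N q (4 * N₀) (by rw [hN]; ring) _
  rw [t2, t2q, tq] at e
  have key := solve_frac1 e (wU_mul_wUinv Kbar 2 (2 * q * N₀)) (wU_mul_wUinv Kbar q (4 * N₀))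
    (C_inv_mul 2) (C_inv_mul q)
  have hq0 : (q : Kbar) ≠ 0 := by exact_mod_cast NeZero.ne q
  have hconst : (HahnSeries.C ((((2 * q : ℕ) : Kbar)⁻¹) ^ 12) : LaurentSeries Kbar) *
      HahnSeries.C (((2 : ℕ) : Kbar) ^ 12) *
      HahnSeries.C (((q : ℕ) : Kbar) ^ 12) ^ 2 = HahnSeries.C ((q : Kbar) ^ 12) := by
    rw [← map_pow, ← map_mul, ← map_mul]
    apply congrArg
    push_cast
    exact const1 (q : Kbar) hq0 two_ne_zero
  rw [key, hconst]
  rfl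

end Bar

/-! ### over a subfield `K ⊂ ℚbar` -/

section OverK

open Fermat.Agent.RED.DESC.PlaceExtend27

variable (N : ℕ) [NeZero N] (K : IntermediateField ℚ Qbar) (q N₀ : ℕ) [NeZero q] [NeZero N₀]
  (h : 4 * q ∣ N)

/-- the test unit of chart `0` in `FK N K`. -/
def h0K : FK N K := ⟨h0S ↥K q, h0S_mem_FK N K q h⟩

/-- its inverse. -/
def h0Kinv : FK N K := ⟨h0Sinv ↥K q, h0Sinv_mem_FK N K q h⟩

/-- the test unit of chart `1` in `FK N K`. -/
def h1K : FK N K := ⟨h1S ↥K q, h1S_mem_FK N K q h⟩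

/-- its inverse. -/
def h1Kinv : FK N K := ⟨h1Sinv ↥K q, h1Sinv_mem_FK N K q h⟩

@[simp] theorem coe_h0K : ((h0K N K q h : FK N K) : LaurentSeries K) = h0S ↥K q := rfl
@[simp] theorem coe_h0Kinv : ((h0Kinv N K q h : FK N K) : LaurentSeries K) = h0Sinv ↥K q := rfl
@[simp] theorem coe_h1K : ((h1K N K q h : FK N K) : LaurentSeries K) = h1S ↥K q := rfl
@[simp] theorem coe_h1Kinv : ((h1Kinv N K q h : FK N K) : LaurentSeries K) = h1Sinv ↥K q := rfl

theorem h0K_mul_h0Kinv : h0K N K q h * h0Kinv N K q h = 1 :=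
  Subtype.ext (h0S_mul_h0Sinv ↥K q)

theorem h1K_mul_h1Kinv : h1K N K q h * h1Kinv N K q h = 1 :=
  Subtype.ext (h1S_mul_h1Sinv ↥K q)

theorem baseChangeHom_h0K : baseChangeHom N K (h0K N K q h) = h0F N q h := by
  apply Subtype.ext
  rw [coe_baseChangeHom, coe_h0K, coeffMap_h0S]
  exact (coe_h0F N q h).symm

theorem baseChangeHom_h1K : baseChangeHom N K (h1K N K q h) = h1F N q h := by
  apply Subtype.ext
  rw [coe_baseChangeHom, coe_h1K, coeffMap_h1S]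
  exact (coe_h1F N q h).symm

/-- **the expansion of `h0K` at the cusp `0`**: `q¹²` times an integral series. -/
theorem iotaTwo_h0K (hN : N = 4 * q * N₀) :
    iotaTwo N K (h0K N K q h) = HahnSeries.C ((q : K) ^ 12) * W0S ↥K q N₀ := by
  apply coeffMap_injective_aux (algebraMap K Qbar) (algebraMap K Qbar).injective
  have hc : algebraMap K Qbar ((q : K) ^ 12) = (q : Qbar) ^ 12 := by rw [map_pow, map_natCast]
  rw [coeffMap_iotaTwo, baseChangeHom_h0K, tauS_h0F N q N₀ hN h, map_mul, coeffMap_C_aux,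
    coeffMap_W0S, hc]

/-- **the expansion of `h1K` at the cusp `0`**: `q¹²` times an integral series. -/
theorem iotaTwo_h1K (hN : N = 4 * q * N₀) :
    iotaTwo N K (h1K N K q h) = HahnSeries.C ((q : K) ^ 12) * W1S ↥K q N₀ := by
  apply coeffMap_injective_aux (algebraMap K Qbar) (algebraMap K Qbar).injective
  have hc : algebraMap K Qbar ((q : K) ^ 12) = (q : Qbar) ^ 12 := by rw [map_pow, map_natCast]
  rw [coeffMap_iotaTwo, baseChangeHom_h1K, tauS_h1F N q N₀ hN h, map_mul, coeffMap_C_aux,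
    coeffMap_W1S, hc]

end OverK

end Fermat.Agent.T1B.TestElt79
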