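/-
Programme T1B, brick F2' (helper79), part 5: **THE TEST ELEMENTS of the nodal model of `X₀(M' q)`**
(`ES/N34/ModelDefs9` vocabulary: `F = FK (M' q) K`, `R = AK A K`, charts `B0 = chart R t`, `B1 = chart R t⁻¹`,
Gauss valuation rings `O1` (cusp `∞`) and `O2 = O1 ∘ W` (cusp `0`)), `4 ∣ M'`, `q` an odd prime.

With `U_δ = Δ(δ z)/Δ(z)`:
* chart `0`: `h0 = U_4² U_{2q} / (U_2 U_{4q}²)`;   chart `1`: `h1 = U_{2q} / (U_2 U_q²)`.
Both are GLOBAL: `h_i ∈ B_i` and `π^n / h_i ∈ B_i` (`q¹² = π^n · unit`), `h_i` is a unit of `O1`, and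
`h_i = π^n · (unit of O2)`.  These are literally the inputs `hh / hloc / hloc' / ha1 / ha2` of
`T1B/NodeNF37/N34Inst.exists_nodeData0/1` (with denominators `d = 1`) at EVERY node of the chart.
-/
import Mathlib
import Fermat.Agent.T1B.TestElt79.Fricke
import Fermat.Agent.ES.N34.NumData13
import Fermat.Agent.ES.N34.SatIntegral18

set_option autoImplicit false
set_option linter.unusedSectionVars false

open ModularCurve HahnSeries
open scoped IntermediateField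

noncomputable section

namespace Fermat.Agent.T1B.TestElt79

open Fermat.Agent.X0 Fermat.Agent.RED.Interface4
open Fermat.Agent.RED.BASE.EtaQuot12
open Fermat.Agent.RED.PUR.GaussGen8 Fermat.Agent.RED.PUR.ChartGeneric22
open Fermat.Agent.ES.N34.ModelDefs9 Fermat.Agent.ES.N34.FrickeFK8
open Fermat.Agent.ES.N34.NodalCore13 Fermat.Agent.ES.N34.NumData13
open Fermat.Agent.ES.N34.SatIntegral18 Fermat.Agent.ES.N34.ModEq23

/-! ### Gauss integrality of the formal series -/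

section GaussFacts

variable {K : Type*} [Field K] (O : ValuationSubring K) (q N₀ : ℕ) [NeZero q] [NeZero N₀]

theorem h0S_mem_gaussRing : h0S K q ∈ gaussRing O := by
  rw [← coeffMap_h0S q O.subtype]; exact embK_mem O _

theorem h0Sinv_mem_gaussRing : h0Sinv K q ∈ gaussRing O := by
  rw [← coeffMap_h0Sinv q O.subtype]; exact embK_mem O _

theorem h1S_mem_gaussRing : h1S K q ∈ gaussRing O := by
  rw [← coeffMap_h1S q O.subtype]; exact embK_mem O _

theorem h1Sinv_mem_gaussRing : h1Sinv K q ∈ gaussRing O := by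
  rw [← coeffMap_h1Sinv q O.subtype]; exact embK_mem O _

theorem W0S_mem_gaussRing : W0S K q N₀ ∈ gaussRing O := by
  rw [← coeffMap_W0S q N₀ O.subtype]; exact embK_mem O _

theorem W0Sinv_mem_gaussRing : W0Sinv K q N₀ ∈ gaussRing O := by
  rw [← coeffMap_W0Sinv q N₀ O.subtype]; exact embK_mem O _

theorem W1S_mem_gaussRing : W1S K q N₀ ∈ gaussRing O := by
  rw [← coeffMap_W1S q N₀ O.subtype]; exact embK_mem O _

theorem W1Sinv_mem_gaussRing : W1Sinv K q N₀ ∈ gaussRing O := by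
  rw [← coeffMap_W1Sinv q N₀ O.subtype]; exact embK_mem O _

end GaussFacts

/-! ### `q¹² / h_i` and `h_i / q¹²` and their expansions at the cusp `0` -/

section Quot

variable (N : ℕ) [NeZero N] (K : IntermediateField ℚ Qbar) (q N₀ : ℕ) [NeZero q] [NeZero N₀]
  (h : 4 * q ∣ N)

/-- `q¹² / h0`. -/
def w0 : FK N K := algebraMap K (FK N K) ((q : K) ^ 12) * h0Kinv N K q h
/-- `h0 / q¹²`. -/
def w0' : FK N K := algebraMap K (FK N K) (((q : K) ^ 12)⁻¹) * h0K N K q h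
/-- `q¹² / h1`. -/
def w1 : FK N K := algebraMap K (FK N K) ((q : K) ^ 12) * h1Kinv N K q h
/-- `h1 / q¹²`. -/
def w1' : FK N K := algebraMap K (FK N K) (((q : K) ^ 12)⁻¹) * h1K N K q h

theorem q12_ne_zero : ((q : K) ^ 12) ≠ 0 :=
  pow_ne_zero _ (by exact_mod_cast NeZero.ne q)

theorem w0_mul_w0' : w0 N K q h * w0' N K q h = 1 := by
  have e := h0K_mul_h0Kinv N K q h
  have hq := q12_ne_zero K q
  unfold w0 w0'
  calc _ = algebraMap K (FK N K) ((q : K) ^ 12 * ((q : K) ^ 12)⁻¹) *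
        (h0K N K q h * h0Kinv N K q h) := by rw [map_mul]; ring
    _ = 1 := by rw [e, mul_inv_cancel₀ hq, map_one, mul_one]

theorem w1_mul_w1' : w1 N K q h * w1' N K q h = 1 := by
  have e := h1K_mul_h1Kinv N K q h
  have hq := q12_ne_zero K q
  unfold w1 w1'
  calc _ = algebraMap K (FK N K) ((q : K) ^ 12 * ((q : K) ^ 12)⁻¹) *
        (h1K N K q h * h1Kinv N K q h) := by rw [map_mul]; ring
    _ = 1 := by rw [e, mul_inv_cancel₀ hq, map_one, mul_one]

theorem iotaTwo_w0' (hN : N = 4 * q * N₀) : iotaTwo N K (w0' N K q h) = W0S ↥K q N₀ := by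
  have hq := q12_ne_zero K q
  rw [w0', map_mul, iotaTwo_algebraMap, iotaTwo_h0K N K q N₀ h hN, ← mul_assoc, ← map_mul,
    inv_mul_cancel₀ hq, map_one, one_mul]

theorem iotaTwo_w1' (hN : N = 4 * q * N₀) : iotaTwo N K (w1' N K q h) = W1S ↥K q N₀ := by
  have hq := q12_ne_zero K q
  rw [w1', map_mul, iotaTwo_algebraMap, iotaTwo_h1K N K q N₀ h hN, ← mul_assoc, ← map_mul,
    inv_mul_cancel₀ hq, map_one, one_mul]

theorem iotaTwo_w0 (hN : N = 4 * q * N₀) : iotaTwo N K (w0 N K q h) = W0Sinv ↥K q N₀ := by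
  have e := congrArg (iotaTwo N K) (w0_mul_w0' N K q h)
  rw [map_mul, map_one, iotaTwo_w0' N K q N₀ h hN] at e
  calc iotaTwo N K (w0 N K q h)
      = iotaTwo N K (w0 N K q h) * (W0S ↥K q N₀ * W0Sinv ↥K q N₀) := by
        rw [W0S_mul_W0Sinv, mul_one]
    _ = W0Sinv ↥K q N₀ := by rw [← mul_assoc, e, one_mul]

theorem iotaTwo_w1 (hN : N = 4 * q * N₀) : iotaTwo N K (w1 N K q h) = W1Sinv ↥K q N₀ := by
  have e := congrArg (iotaTwo N K) (w1_mul_w1' N K q h)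
  rw [map_mul, map_one, iotaTwo_w1' N K q N₀ h hN] at e
  calc iotaTwo N K (w1 N K q h)
      = iotaTwo N K (w1 N K q h) * (W1S ↥K q N₀ * W1Sinv ↥K q N₀) := by
        rw [W1S_mul_W1Sinv, mul_one]
    _ = W1Sinv ↥K q N₀ := by rw [← mul_assoc, e, one_mul]

end Quot

/-! ### the test elements in the nodal model -/

section Model

variable (A : ValuationSubring Qbar) {K : IntermediateField ℚ Qbar} {M' : ℕ} (q : ℕ)
  [NeZero M'] [NeZero q]

theorem four_mul_dvd (hM : 4 ∣ M') : 4 * q ∣ M' * q := Nat.mul_dvd_mul_right hM q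

/-- constants of `R` lie in both Gauss valuation rings (they lie in the chart `B0`). -/
theorem const_mem {R F : Type*} [CommRing R] [Field F] [Algebra R F] (B : Subalgebra R F)
    (O : ValuationSubring F) (le : ∀ x ∈ B, x ∈ O) (r : R) : algebraMap R F r ∈ O :=
  le _ (B.algebraMap_mem r)

/-- integrality over `K[s]` of a constant multiple. -/
theorem isIntegral_const_mul {K F : Type*} [Field K] [Field F] [Algebra K F] (s : F) (c : K)
    {x : F} (hx : IsIntegral (Algebra.adjoin K {s}) x) :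
    IsIntegral (Algebra.adjoin K {s}) (algebraMap K F c * x) := by
  have hc : IsIntegral (Algebra.adjoin K {s}) (algebraMap K F c) :=
    isIntegral_algebraMap (R := Algebra.adjoin K {s}) (A := F)
      (x := ⟨algebraMap K F c, Subalgebra.algebraMap_mem _ c⟩)
  exact hc.mul hx

/-- **The abstract assembly.**  From a function `h` with inverse `hinv`, both integral over `K[s]` and
in `O1`, such that `c / h` and `h / c` lie in `O2` (`c = π^n · unit` a constant): `h` and `π^n / h`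
lie in the `π`-saturated chart `B`, and `h = π^n · (unit of O2)`. -/
theorem test_of_data {R K F : Type*} [CommRing R] [IsDomain R] [Field K] [Field F] [Algebra R K]
    [IsFractionRing R K] [Algebra K F] [Algebra R F] [IsScalarTower R K F]
    (π : R) (dvrR : ∀ r : R, r ≠ 0 → ∃ (k : ℕ) (v : Rˣ), r = π ^ k * v)
    (s : F) (B : Subalgebra R F)
    (hB : ∀ x : F, IsIntegral (Algebra.adjoin R {s}) x → x ∈ B)
    (O1 O2 : ValuationSubring F) (le1 : ∀ x ∈ B, x ∈ O1) (le2 : ∀ x ∈ B, x ∈ O2)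
    (sat : ∀ b ∈ B, ∀ c : F, c ∈ O1 → c ∈ O2 → b = algebraMap R F π * c → c ∈ B)
    {h hinv w w' : F} {c : K} (hc : c ≠ 0)
    (hmul : h * hinv = 1) (hw : w = algebraMap K F c * hinv) (hw' : w' = algebraMap K F c⁻¹ * h)
    (hI : IsIntegral (Algebra.adjoin K {s}) h) (hIinv : IsIntegral (Algebra.adjoin K {s}) hinv)
    (hO1 : h ∈ O1) (hinvO1 : hinv ∈ O1) (hwO2 : w ∈ O2) (hw'O2 : w' ∈ O2)
    {n : ℕ} {u : Rˣ} {cR : R} (hcR : algebraMap R K cR = c) (hqπ : cR = π ^ n * u) :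
    ∃ h' u2 : F, h * h' = algebraMap R F π ^ n ∧ h ∈ B ∧ h' ∈ B ∧ h⁻¹ ∈ O1 ∧
      u2 ∈ O2 ∧ u2⁻¹ ∈ O2 ∧ h = algebraMap R F π ^ n * u2 := by
  have cO1 : ∀ r : R, algebraMap R F r ∈ O1 := const_mem B O1 le1
  have cO2 : ∀ r : R, algebraMap R F r ∈ O2 := const_mem B O2 le2
  have hcF : algebraMap K F c = algebraMap R F cR := by
    rw [IsScalarTower.algebraMap_apply R K F, hcR]
  have hcu : algebraMap R F (u : R) * algebraMap R F ((u⁻¹ : Rˣ) : R) = 1 := by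
    rw [← map_mul, Units.mul_inv, map_one]
  have hPiq : algebraMap R F π ^ n * algebraMap R F (u : R) = algebraMap K F c := by
    rw [hcF, hqπ, map_mul, map_pow]
  have hcne : algebraMap K F c ≠ 0 := (map_ne_zero_iff _ (algebraMap K F).injective).mpr hc
  have hcw' : algebraMap K F c * w' = h := by
    rw [hw', ← mul_assoc, ← map_mul, mul_inv_cancel₀ hc, map_one, one_mul]
  have hww' : w * w' = 1 := by
    rw [hw, hw']
    calc algebraMap K F c * hinv * (algebraMap K F c⁻¹ * h)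
        = algebraMap K F (c * c⁻¹) * (h * hinv) := by rw [map_mul]; ring
      _ = 1 := by rw [hmul, mul_inv_cancel₀ hc, map_one, mul_one]
  have hwO1 : w ∈ O1 := by
    rw [hw, hcF]
    exact O1.mul_mem _ _ (cO1 _) hinvO1
  have hhO2 : h ∈ O2 := by
    rw [← hcw', hcF]
    exact O2.mul_mem _ _ (cO2 _) hw'O2
  refine ⟨algebraMap R F ((u⁻¹ : Rˣ) : R) * w, algebraMap R F (u : R) * w', ?_, ?_, ?_, ?_, ?_,
    ?_, ?_⟩
  · calc h * (algebraMap R F ((u⁻¹ : Rˣ) : R) * w)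
        = algebraMap R F ((u⁻¹ : Rˣ) : R) * algebraMap K F c * (h * hinv) := by rw [hw]; ring
      _ = algebraMap R F π ^ n * (algebraMap R F (u : R) * algebraMap R F ((u⁻¹ : Rˣ) : R)) := by
        rw [hmul, ← hPiq]; ring
      _ = algebraMap R F π ^ n := by rw [hcu, mul_one]
  · exact mem_of_isIntegral_field (R := R) (K := K) (F := F) π dvrR s B hB O1 O2 (cO1 π) (cO2 π)
      sat hI hO1 hhO2
  · have hI' : IsIntegral (Algebra.adjoin K {s}) (algebraMap R F ((u⁻¹ : Rˣ) : R) * w) := by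
      have e : algebraMap R F ((u⁻¹ : Rˣ) : R) * w =
          algebraMap K F (algebraMap R K ((u⁻¹ : Rˣ) : R) * c) * hinv := by
        rw [hw, map_mul, ← mul_assoc, ← IsScalarTower.algebraMap_apply R K F]
      rw [e]
      exact isIntegral_const_mul _ _ hIinv
    exact mem_of_isIntegral_field (R := R) (K := K) (F := F) π dvrR s B hB O1 O2 (cO1 π) (cO2 π)
      sat hI' (O1.mul_mem _ _ (cO1 _) hwO1) (O2.mul_mem _ _ (cO2 _) hwO2)
  · have : h⁻¹ = hinv := (eq_inv_of_mul_eq_one_right hmul).symm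
    rw [this]
    exact hinvO1
  · exact O2.mul_mem _ _ (cO2 _) hw'O2
  · have : (algebraMap R F (u : R) * w')⁻¹ = algebraMap R F ((u⁻¹ : Rˣ) : R) * w := by
      symm
      apply eq_inv_of_mul_eq_one_left
      calc algebraMap R F ((u⁻¹ : Rˣ) : R) * w * (algebraMap R F (u : R) * w')
          = (algebraMap R F (u : R) * algebraMap R F ((u⁻¹ : Rˣ) : R)) * (w * w') := by ring
        _ = 1 := by rw [hcu, hww', mul_one]
    rw [this]
    exact O2.mul_mem _ _ (cO2 _) hwO2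
  · calc h = algebraMap K F c * w' := hcw'.symm
      _ = algebraMap R F π ^ n * (algebraMap R F (u : R) * w') := by rw [← hPiq]; ring

/-- **(F2') the test element of chart `0`.**  `h = U_4² U_{2q}/(U_2 U_{4q}²)`, `h' = π^n / h`:
both lie in `B0`, `h` is a unit of `O1`, and `h = π^n · u₂` with `u₂` a unit of `O2`, where
`q¹² = π^n · (unit of R)`. -/
theorem exists_test0 (hq : q.Prime) (hq2 : q ≠ 2) (hM : 4 ∣ M')
    (ht : tq ↥K 4 8 ∈ FK M' K) (hE : FK (M' * q) K ≤ fracField (AK A K))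
    {π : ↥(AK A K)} (hπ : IsUnif (AK A K) π)
    (D : NodalNumData ↥(AK A K) ↥K ↥(FK (M' * q) K) π (tN q ht) (B0 A q ht) (B1 A q ht)
      (O1 M' q hπ hE) (O2 M' q hπ hE))
    {n : ℕ} {u : (↥(AK A K))ˣ} (hqπ : ((q : ℕ) : ↥(AK A K)) ^ 12 = π ^ n * u) :
    ∃ h h' u2 : ↥(FK (M' * q) K),
      h * h' = algebraMap ↥(AK A K) ↥(FK (M' * q) K) π ^ n ∧
      h ∈ B0 A q ht ∧ h' ∈ B0 A q ht ∧
      h ∈ O1 M' q hπ hE ∧ h⁻¹ ∈ O1 M' q hπ hE ∧
      u2 ∈ O2 M' q hπ hE ∧ u2⁻¹ ∈ O2 M' q hπ hE ∧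
      h = algebraMap ↥(AK A K) ↥(FK (M' * q) K) π ^ n * u2 := by
  obtain ⟨N₀, hN₀⟩ := hM
  have hN : M' * q = 4 * q * N₀ := by rw [hN₀]; ring
  haveI : NeZero N₀ := ⟨fun h0 => NeZero.ne M' (by rw [hN₀, h0, mul_zero])⟩
  have h4q : 4 * q ∣ M' * q := four_mul_dvd q ⟨N₀, hN₀⟩
  haveI := D.fracR
  have hO1 : h0K (M' * q) K q h4q ∈ O1 M' q hπ hE := by
    rw [mem_O1_iff]
    exact h0S_mem_gaussRing (AK A K) q
  have hinvO1 : h0Kinv (M' * q) K q h4q ∈ O1 M' q hπ hE := by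
    rw [mem_O1_iff]
    exact h0Sinv_mem_gaussRing (AK A K) q
  have hwO2 : w0 (M' * q) K q h4q ∈ O2 M' q hπ hE := by
    rw [mem_O2_iff]
    show iotaTwo (M' * q) K (w0 (M' * q) K q h4q) ∈ _
    rw [iotaTwo_w0 (M' * q) K q N₀ h4q hN]
    exact W0Sinv_mem_gaussRing (AK A K) q N₀
  have hw'O2 : w0' (M' * q) K q h4q ∈ O2 M' q hπ hE := by
    rw [mem_O2_iff]
    show iotaTwo (M' * q) K (w0' (M' * q) K q h4q) ∈ _
    rw [iotaTwo_w0' (M' * q) K q N₀ h4q hN]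
    exact W0S_mem_gaussRing (AK A K) q N₀
  have hI : IsIntegral (Algebra.adjoin K {tN q ht}) (h0K (M' * q) K q h4q) :=
    isIntegral_of_coe_eq K _ (coe_tN q ht) (coe_h0K (M' * q) K q h4q)
      (isIntegral_h0S K q hq hq2)
  have hIinv : IsIntegral (Algebra.adjoin K {tN q ht}) (h0Kinv (M' * q) K q h4q) :=
    isIntegral_of_coe_eq K _ (coe_tN q ht) (coe_h0Kinv (M' * q) K q h4q)
      (isIntegral_h0Sinv K q hq hq2)
  have hcR : algebraMap ↥(AK A K) ↥K (((q : ℕ) : ↥(AK A K)) ^ 12) = (q : K) ^ 12 := by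
    rw [map_pow, map_natCast]
  obtain ⟨h', u2, e1, e2, e3, e4, e5, e6, e7⟩ :=
    test_of_data (R := ↥(AK A K)) (K := ↥K) (F := ↥(FK (M' * q) K)) π D.dvrR (tN q ht)
      (B0 A q ht) (fun x hx => mem_chart_iff.2 hx) (O1 M' q hπ hE) (O2 M' q hπ hE)
      D.model.le_O1_0 D.model.le_O2_0 D.model.sat0 (q12_ne_zero K q)
      (h0K_mul_h0Kinv (M' * q) K q h4q) (w := w0 (M' * q) K q h4q) rfl
      (w' := w0' (M' * q) K q h4q) rfl hI hIinv hO1 hinvO1 hwO2 hw'O2 hcR hqπ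
  exact ⟨_, h', u2, e1, e2, e3, hO1, e4, e5, e6, e7⟩

/-- **(F2') the test element of chart `1`.**  `h = U_{2q}/(U_2 U_q²)`, `h' = π^n / h`:
both lie in `B1`, `h` is a unit of `O1`, and `h = π^n · u₂` with `u₂` a unit of `O2`, where
`q¹² = π^n · (unit of R)`. -/
theorem exists_test1 (hq : q.Prime) (hq2 : q ≠ 2) (hM : 4 ∣ M')
    (ht : tq ↥K 4 8 ∈ FK M' K) (hE : FK (M' * q) K ≤ fracField (AK A K))
    {π : ↥(AK A K)} (hπ : IsUnif (AK A K) π)
    (D : NodalNumData ↥(AK A K) ↥K ↥(FK (M' * q) K) π (tN q ht) (B0 A q ht) (B1 A q ht)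
      (O1 M' q hπ hE) (O2 M' q hπ hE))
    {n : ℕ} {u : (↥(AK A K))ˣ} (hqπ : ((q : ℕ) : ↥(AK A K)) ^ 12 = π ^ n * u) :
    ∃ h h' u2 : ↥(FK (M' * q) K),
      h * h' = algebraMap ↥(AK A K) ↥(FK (M' * q) K) π ^ n ∧
      h ∈ B1 A q ht ∧ h' ∈ B1 A q ht ∧
      h ∈ O1 M' q hπ hE ∧ h⁻¹ ∈ O1 M' q hπ hE ∧
      u2 ∈ O2 M' q hπ hE ∧ u2⁻¹ ∈ O2 M' q hπ hE ∧
      h = algebraMap ↥(AK A K) ↥(FK (M' * q) K) π ^ n * u2 := by
  obtain ⟨N₀, hN₀⟩ := hM
  have hN : M' * q = 4 * q * N₀ := by rw [hN₀]; ring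
  haveI : NeZero N₀ := ⟨fun h0 => NeZero.ne M' (by rw [hN₀, h0, mul_zero])⟩
  have h4q : 4 * q ∣ M' * q := four_mul_dvd q ⟨N₀, hN₀⟩
  haveI := D.fracR
  have hO1 : h1K (M' * q) K q h4q ∈ O1 M' q hπ hE := by
    rw [mem_O1_iff]
    exact h1S_mem_gaussRing (AK A K) q
  have hinvO1 : h1Kinv (M' * q) K q h4q ∈ O1 M' q hπ hE := by
    rw [mem_O1_iff]
    exact h1Sinv_mem_gaussRing (AK A K) q
  have hwO2 : w1 (M' * q) K q h4q ∈ O2 M' q hπ hE := by
    rw [mem_O2_iff]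
    show iotaTwo (M' * q) K (w1 (M' * q) K q h4q) ∈ _
    rw [iotaTwo_w1 (M' * q) K q N₀ h4q hN]
    exact W1Sinv_mem_gaussRing (AK A K) q N₀
  have hw'O2 : w1' (M' * q) K q h4q ∈ O2 M' q hπ hE := by
    rw [mem_O2_iff]
    show iotaTwo (M' * q) K (w1' (M' * q) K q h4q) ∈ _
    rw [iotaTwo_w1' (M' * q) K q N₀ h4q hN]
    exact W1S_mem_gaussRing (AK A K) q N₀
  have ctinv : (((tN q ht)⁻¹ : ↥(FK (M' * q) K)) : LaurentSeries K) = (tq ↥K 4 8)⁻¹ := by
    rw [IntermediateField.coe_inv, coe_tN]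
  have hI : IsIntegral (Algebra.adjoin K {(tN q ht)⁻¹}) (h1K (M' * q) K q h4q) :=
    isIntegral_of_coe_eq K _ ctinv (coe_h1K (M' * q) K q h4q) (isIntegral_h1S K q hq hq2)
  have hIinv : IsIntegral (Algebra.adjoin K {(tN q ht)⁻¹}) (h1Kinv (M' * q) K q h4q) :=
    isIntegral_of_coe_eq K _ ctinv (coe_h1Kinv (M' * q) K q h4q) (isIntegral_h1Sinv K q hq hq2)
  have hcR : algebraMap ↥(AK A K) ↥K (((q : ℕ) : ↥(AK A K)) ^ 12) = (q : K) ^ 12 := by
    rw [map_pow, map_natCast]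
  obtain ⟨h', u2, e1, e2, e3, e4, e5, e6, e7⟩ :=
    test_of_data (R := ↥(AK A K)) (K := ↥K) (F := ↥(FK (M' * q) K)) π D.dvrR (tN q ht)⁻¹
      (B1 A q ht) (fun x hx => mem_chart_iff.2 hx) (O1 M' q hπ hE) (O2 M' q hπ hE)
      D.model.le_O1_1 D.model.le_O2_1 D.model.sat1 (q12_ne_zero K q)
      (h1K_mul_h1Kinv (M' * q) K q h4q) (w := w1 (M' * q) K q h4q) rfl
      (w' := w1' (M' * q) K q h4q) rfl hI hIinv hO1 hinvO1 hwO2 hw'O2 hcR hqπ
  exact ⟨_, h', u2, e1, e2, e3, hO1, e4, e5, e6, e7⟩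

end Model

end Fermat.Agent.T1B.TestElt79
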