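/-
Programme T1B, brick F2' (helper79), part 6: **the thickness of every node of the nodal model of
`X₀(M' q)` divides `12 · v_π(q)`**  (`4 ∣ M'`, `q` an odd prime).

The test elements of `TestElt79/Main` (`exists_test0`, `exists_test1`) are fed to helper37's
`NodeNF37.N34Inst.exists_nodeData0/1`: at every maximal ideal `𝔪 ∋ π` of the chart `B_i` through which both
branches pass, the local ring has the strong node normal form `NodeClassGroup.NodeData … k` with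
`1 ≤ … k ≤ n` and `k ∣ n`, where `q¹² = π^n · unit` in `R = AK A K`.

* `exists_q12_eq`        : `n ≥ 1` and the unit, from `A.LiesOverPrime q` and `dvrR`;
* `exists_nodeData0_dvd`, `exists_nodeData1_dvd` : the two charts.
-/
import Mathlib
import Fermat.Agent.T1B.TestElt79.Main
import Fermat.Agent.T1B.NodeNF37.N34Inst

set_option autoImplicit false
set_option linter.unusedSectionVars false
set_option linter.unusedVariables false

open ModularCurve HahnSeries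
open scoped IntermediateField

noncomputable section

namespace Fermat.Agent.T1B.TestElt79

open Fermat.Agent.X0 Fermat.Agent.RED.Interface4
open Fermat.Agent.RED.BASE.EtaQuot12
open Fermat.Agent.RED.PUR.GaussGen8 Fermat.Agent.RED.PUR.ChartGeneric22
open Fermat.Agent.ES.N34.ModelDefs9
open Fermat.Agent.ES.N34.NodalCore13 Fermat.Agent.ES.N34.NumData13
open Fermat.Agent.T1B.NodeNF37.N34Inst Fermat.Agent.T1B.NodeNF37.UnifOrd
open Fermat.Agent.T1B.NodeNF37.Local Fermat.Agent.T1.Peu37.NodeClassGroup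

/-! ### abstract glue -/

section Abstract

variable {R F : Type*} [CommRing R] [Field F] [Algebra R F]

/-- the model fields give `IsUnifFor`. -/
theorem isUnifFor_of_model (π : R) (O : ValuationSubring F) (pi_ne : algebraMap R F π ≠ 0)
    (pi_nonunit : (algebraMap R F π)⁻¹ ∉ O)
    (unif : ∀ x ∈ O, x⁻¹ ∉ O → ∃ c ∈ O, x = algebraMap R F π * c)
    (arch : ∀ x : F, ∃ k : ℕ, algebraMap R F π ^ k * x ∈ O) :
    IsUnifFor O (algebraMap R F π) := ⟨pi_ne, pi_nonunit, unif, arch⟩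

/-- a unit of `O1` is not in `π O1`. -/
theorem not_pi_mul_of_inv_mem (π : R) (O : ValuationSubring F)
    (pi_nonunit : (algebraMap R F π)⁻¹ ∉ O) {h : F} (h0 : h ≠ 0) (hinv : h⁻¹ ∈ O) :
    ¬ ∃ c ∈ O, h = algebraMap R F π * c := by
  rintro ⟨c, hc, e⟩
  apply pi_nonunit
  have hπ0 : algebraMap R F π ≠ 0 := left_ne_zero_of_mul (e ▸ h0)
  have : (algebraMap R F π)⁻¹ = h⁻¹ * c := by
    rw [e, mul_inv, mul_assoc, mul_comm c⁻¹, ← mul_assoc, mul_assoc _ c,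
      mul_inv_cancel₀ (right_ne_zero_of_mul (e ▸ h0)), mul_one]
  rw [this]
  exact O.mul_mem _ _ hinv hc

/-- `π^n u ∈ π O` for `n ≥ 1`. -/
theorem exists_pi_mul (π : R) (O : ValuationSubring F) (hπ : algebraMap R F π ∈ O) {h u : F}
    {n : ℕ} (hn : 1 ≤ n) (hu : u ∈ O) (e : h = algebraMap R F π ^ n * u) :
    ∃ c ∈ O, h = algebraMap R F π * c := by
  obtain ⟨k, rfl⟩ : ∃ k, n = k + 1 := ⟨n - 1, by omega⟩
  refine ⟨algebraMap R F π ^ k * u, O.mul_mem _ _ (O.pow_mem hπ k) hu, ?_⟩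
  rw [e, pow_succ]
  ring

end Abstract

/-! ### `q¹² = π^n · unit`, `n ≥ 1` -/

section Unif

variable (A : ValuationSubring Qbar) {K : IntermediateField ℚ Qbar} (q : ℕ) [NeZero q]

theorem exists_q12_eq (hA : A.LiesOverPrime q) {π : ↥(AK A K)}
    (dvrR : ∀ r : ↥(AK A K), r ≠ 0 → ∃ (k : ℕ) (v : (↥(AK A K))ˣ), r = π ^ k * v) :
    ∃ (n : ℕ) (u : (↥(AK A K))ˣ), 1 ≤ n ∧ ((q : ℕ) : ↥(AK A K)) ^ 12 = π ^ n * u := by
  have hq0 : ((q : ℕ) : ↥(AK A K)) ≠ 0 := by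
    intro h0
    have := congrArg (fun x : ↥(AK A K) => (x : K)) h0
    simp only [ZeroMemClass.coe_zero] at this
    have h1 : ((q : ℕ) : K) = 0 := by
      rw [← this]
      norm_cast
    exact NeZero.ne q (by exact_mod_cast h1)
  obtain ⟨n, u, hnu⟩ := dvrR _ (pow_ne_zero 12 hq0)
  refine ⟨n, u, ?_, hnu⟩
  by_contra hn
  have hn0 : n = 0 := by omega
  rw [hn0, pow_zero, one_mul] at hnu
  -- `q ^ 12` is a unit of `AK A K`, hence `q` is a unit of `A`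
  have hunit : IsUnit (((q : ℕ) : ↥(AK A K)) ^ 12) := hnu ▸ u.isUnit
  have hunit1 : IsUnit ((q : ℕ) : ↥(AK A K)) := (isUnit_pow_iff (by norm_num)).mp hunit
  obtain ⟨v, hv⟩ := hunit1
  have hvinv : (((v⁻¹ : (↥(AK A K))ˣ) : ↥(AK A K)) : K) * ((q : ℕ) : K) = 1 := by
    have e : ((v⁻¹ : (↥(AK A K))ˣ) : ↥(AK A K)) * (v : ↥(AK A K)) = 1 := Units.inv_mul v
    rw [hv] at e
    have := congrArg (fun x : ↥(AK A K) => (x : K)) e
    simpa using this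
  have hmemA : algebraMap K Qbar ((((v⁻¹ : (↥(AK A K))ˣ) : ↥(AK A K)) : K)) ∈ A :=
    ((v⁻¹ : (↥(AK A K))ˣ) : ↥(AK A K)).2
  have hprod : algebraMap K Qbar ((((v⁻¹ : (↥(AK A K))ˣ) : ↥(AK A K)) : K)) * ((q : ℕ) : Qbar) = 1 := by
    have := congrArg (algebraMap K Qbar) hvinv
    rwa [map_mul, map_natCast, map_one] at this
  have hqA : ((q : ℕ) : Qbar) ∈ A := by
    have : ((q : ℕ) : Qbar) ∈ A.nonunits := hA
    exact A.nonunits_le this
  have : ((q : ℕ) : Qbar) ∉ A.nonunits := by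
    rw [ValuationSubring.mem_nonunits_iff_exists_mem_maximalIdeal]
    rintro ⟨hmem, hmax⟩
    rw [IsLocalRing.mem_maximalIdeal, mem_nonunits_iff] at hmax
    apply hmax
    refine IsUnit.of_mul_eq_one (⟨_, hmemA⟩ : A) (Subtype.ext ?_)
    show ((q : ℕ) : Qbar) * algebraMap K Qbar _ = 1
    rw [mul_comm]
    exact hprod
  exact this hA

end Unif

/-! ### abstract: a global test element gives the node normal form with `k ∣ n` -/

section AbstractNode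

variable {R K F : Type*} [CommRing R] [Field K] [Field F] [Algebra R K] [Algebra K F]
  [Algebra R F] [IsScalarTower R K F]

/-- chart `B0`. -/
theorem nodeData0_of_test {π : R} {t : F} {B0 B1 : Subalgebra R F} {O1 O2 : ValuationSubring F}
    (D : NodalNumData R K F π t B0 B1 O1 O2)
    (𝔪 : Ideal B0) [h𝔪 : 𝔪.IsMaximal] (hπ𝔪 : algebraMap R B0 π ∈ 𝔪)
    (hon1 : ¬ OffBranch π B0 O1 𝔪) (hon2 : ¬ OffBranch π B0 O2 𝔪)
    {h h' u2 : F} {n : ℕ} (hn : 1 ≤ n) (hh : h * h' = algebraMap R F π ^ n)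
    (hB : h ∈ B0) (hB' : h' ∈ B0) (h1 : h ∈ O1) (h1' : h⁻¹ ∈ O1)
    (hu2 : u2 ∈ O2) (hu2' : u2⁻¹ ∈ O2) (e : h = algebraMap R F π ^ n * u2) :
    ∃ (H₁ : BranchHyp (gB B0) 𝔪 O1 (algebraMap R B0 π))
      (H₂ : BranchHyp (gB B0) 𝔪 O2 (algebraMap R B0 π))
      (x' y' : Localization.AtPrime 𝔪) (k : ℕ),
      NodeData (Localization.AtPrime 𝔪) (vv (gB B0) (gB_injective B0) 𝔪 O1 (algebraMap R B0 π))
        (vv (gB B0) (gB_injective B0) 𝔪 O2 (algebraMap R B0 π))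
        (PP (gB B0) (gB_injective B0) 𝔪 H₁) (PP (gB B0) (gB_injective B0) 𝔪 H₂)
        (algebraMap B0 (Localization.AtPrime 𝔪) (algebraMap R B0 π)) x' y' k ∧
      k ≤ n ∧ k ∣ n := by
  have hπn : algebraMap R F π ^ n ≠ 0 := pow_ne_zero _ D.model.pi_ne
  have h0 : h ≠ 0 := left_ne_zero_of_mul (hh ▸ hπn)
  have hu0 : u2 ≠ 0 := right_ne_zero_of_mul (e ▸ h0)
  have hone : (1 : B0) ∉ 𝔪 := (Ideal.ne_top_iff_one 𝔪).mp h𝔪.ne_top
  have hloc : ∃ d : B0, d ∉ 𝔪 ∧ ∃ a : B0, (d : F) * h = (a : F) :=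
    ⟨1, hone, ⟨h, hB⟩, by simp⟩
  have hloc' : ∃ d : B0, d ∉ 𝔪 ∧ ∃ a : B0, (d : F) * h' = (a : F) :=
    ⟨1, hone, ⟨h', hB'⟩, by simp⟩
  have U1 : IsUnifFor O1 (algebraMap R F π) :=
    isUnifFor_of_model π O1 D.model.pi_ne D.model.pi_nonunit1 D.model.unif1 D.model.arch1
  have U2 : IsUnifFor O2 (algebraMap R F π) :=
    isUnifFor_of_model π O2 D.model.pi_ne D.model.pi_nonunit2 D.model.unif2 D.model.arch2
  have ha1 := not_pi_mul_of_inv_mem π O1 D.model.pi_nonunit1 h0 h1'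
  have ha2 := exists_pi_mul π O2 U2.mem hn hu2 e
  obtain ⟨H₁, H₂, x', y', k, hD, hk, hdiv⟩ :=
    exists_nodeData0 D 𝔪 hπ𝔪 hon1 hon2 hh hloc hloc' ha1 ha2
  have o2 : ord O2 (algebraMap R F π) h = n := by
    rw [e]; exact U2.ord_pow_mul_unit hu2 hu2' hu0
  have o1 : ord O1 (algebraMap R F π) h = 0 := (U1.ord_eq_zero_iff h1 h0).mpr h1'
  rw [o2] at hk
  rw [o2, o1] at hdiv
  refine ⟨H₁, H₂, x', y', k, hD, hk, ?_⟩
  have : (k : ℤ) ∣ (n : ℤ) := by simpa using hdiv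
  exact Int.natCast_dvd_natCast.mp this

/-- chart `B1`. -/
theorem nodeData1_of_test {π : R} {t : F} {B0 B1 : Subalgebra R F} {O1 O2 : ValuationSubring F}
    (D : NodalNumData R K F π t B0 B1 O1 O2)
    (𝔪 : Ideal B1) [h𝔪 : 𝔪.IsMaximal] (hπ𝔪 : algebraMap R B1 π ∈ 𝔪)
    (hon1 : ¬ OffBranch π B1 O1 𝔪) (hon2 : ¬ OffBranch π B1 O2 𝔪)
    {h h' u2 : F} {n : ℕ} (hn : 1 ≤ n) (hh : h * h' = algebraMap R F π ^ n)
    (hB : h ∈ B1) (hB' : h' ∈ B1) (h1 : h ∈ O1) (h1' : h⁻¹ ∈ O1)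
    (hu2 : u2 ∈ O2) (hu2' : u2⁻¹ ∈ O2) (e : h = algebraMap R F π ^ n * u2) :
    ∃ (H₁ : BranchHyp (gB B1) 𝔪 O1 (algebraMap R B1 π))
      (H₂ : BranchHyp (gB B1) 𝔪 O2 (algebraMap R B1 π))
      (x' y' : Localization.AtPrime 𝔪) (k : ℕ),
      NodeData (Localization.AtPrime 𝔪) (vv (gB B1) (gB_injective B1) 𝔪 O1 (algebraMap R B1 π))
        (vv (gB B1) (gB_injective B1) 𝔪 O2 (algebraMap R B1 π))
        (PP (gB B1) (gB_injective B1) 𝔪 H₁) (PP (gB B1) (gB_injective B1) 𝔪 H₂)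
        (algebraMap B1 (Localization.AtPrime 𝔪) (algebraMap R B1 π)) x' y' k ∧
      k ≤ n ∧ k ∣ n := by
  have hπn : algebraMap R F π ^ n ≠ 0 := pow_ne_zero _ D.model.pi_ne
  have h0 : h ≠ 0 := left_ne_zero_of_mul (hh ▸ hπn)
  have hu0 : u2 ≠ 0 := right_ne_zero_of_mul (e ▸ h0)
  have hone : (1 : B1) ∉ 𝔪 := (Ideal.ne_top_iff_one 𝔪).mp h𝔪.ne_top
  have hloc : ∃ d : B1, d ∉ 𝔪 ∧ ∃ a : B1, (d : F) * h = (a : F) :=
    ⟨1, hone, ⟨h, hB⟩, by simp⟩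
  have hloc' : ∃ d : B1, d ∉ 𝔪 ∧ ∃ a : B1, (d : F) * h' = (a : F) :=
    ⟨1, hone, ⟨h', hB'⟩, by simp⟩
  have U1 : IsUnifFor O1 (algebraMap R F π) :=
    isUnifFor_of_model π O1 D.model.pi_ne D.model.pi_nonunit1 D.model.unif1 D.model.arch1
  have U2 : IsUnifFor O2 (algebraMap R F π) :=
    isUnifFor_of_model π O2 D.model.pi_ne D.model.pi_nonunit2 D.model.unif2 D.model.arch2
  have ha1 := not_pi_mul_of_inv_mem π O1 D.model.pi_nonunit1 h0 h1'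
  have ha2 := exists_pi_mul π O2 U2.mem hn hu2 e
  obtain ⟨H₁, H₂, x', y', k, hD, hk, hdiv⟩ :=
    exists_nodeData1 D 𝔪 hπ𝔪 hon1 hon2 hh hloc hloc' ha1 ha2
  have o2 : ord O2 (algebraMap R F π) h = n := by
    rw [e]; exact U2.ord_pow_mul_unit hu2 hu2' hu0
  have o1 : ord O1 (algebraMap R F π) h = 0 := (U1.ord_eq_zero_iff h1 h0).mpr h1'
  rw [o2] at hk
  rw [o2, o1] at hdiv
  refine ⟨H₁, H₂, x', y', k, hD, hk, ?_⟩
  have : (k : ℤ) ∣ (n : ℤ) := by simpa using hdiv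
  exact Int.natCast_dvd_natCast.mp this

end AbstractNode

/-! ### the nodal model of `X₀(M' q)` -/

section Model

variable (A : ValuationSubring Qbar) {K : IntermediateField ℚ Qbar} {M' : ℕ} (q : ℕ)
  [NeZero M'] [NeZero q]

/-- **(F2' + F1c) every node of chart `B0` of the nodal model of `X₀(M' q)` has thickness dividing
`n = 12 · v_π(q)`** (`q¹² = π^n · unit`). -/
theorem exists_nodeData0_dvd (hq : q.Prime) (hq2 : q ≠ 2) (hM : 4 ∣ M')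
    (ht : tq ↥K 4 8 ∈ FK M' K) (hE : FK (M' * q) K ≤ fracField (AK A K))
    {π : ↥(AK A K)} (hπ : IsUnif (AK A K) π)
    (D : NodalNumData ↥(AK A K) ↥K ↥(FK (M' * q) K) π (tN q ht) (B0 A q ht) (B1 A q ht)
      (O1 M' q hπ hE) (O2 M' q hπ hE))
    {n : ℕ} {u : (↥(AK A K))ˣ} (hqπ : ((q : ℕ) : ↥(AK A K)) ^ 12 = π ^ n * u) (hn : 1 ≤ n)
    (𝔪 : Ideal (B0 A q ht)) [h𝔪 : 𝔪.IsMaximal]
    (hπ𝔪 : algebraMap ↥(AK A K) (B0 A q ht) π ∈ 𝔪)
    (hon1 : ¬ OffBranch π (B0 A q ht) (O1 M' q hπ hE) 𝔪)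
    (hon2 : ¬ OffBranch π (B0 A q ht) (O2 M' q hπ hE) 𝔪) :
    ∃ (H₁ : BranchHyp (gB (B0 A q ht)) 𝔪 (O1 M' q hπ hE)
        (algebraMap ↥(AK A K) (B0 A q ht) π))
      (H₂ : BranchHyp (gB (B0 A q ht)) 𝔪 (O2 M' q hπ hE)
        (algebraMap ↥(AK A K) (B0 A q ht) π))
      (x' y' : Localization.AtPrime 𝔪) (k : ℕ),
      NodeData (Localization.AtPrime 𝔪)
        (vv (gB (B0 A q ht)) (gB_injective (B0 A q ht)) 𝔪 (O1 M' q hπ hE)
          (algebraMap ↥(AK A K) (B0 A q ht) π))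
        (vv (gB (B0 A q ht)) (gB_injective (B0 A q ht)) 𝔪 (O2 M' q hπ hE)
          (algebraMap ↥(AK A K) (B0 A q ht) π))
        (PP (gB (B0 A q ht)) (gB_injective (B0 A q ht)) 𝔪 H₁)
        (PP (gB (B0 A q ht)) (gB_injective (B0 A q ht)) 𝔪 H₂)
        (algebraMap (B0 A q ht) (Localization.AtPrime 𝔪)
          (algebraMap ↥(AK A K) (B0 A q ht) π)) x' y' k ∧
      k ≤ n ∧ k ∣ n := by
  obtain ⟨h, h', u2, hh, hB, hB', h1, h1', hu2, hu2', e⟩ :=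
    exists_test0 A q hq hq2 hM ht hE hπ D hqπ
  exact nodeData0_of_test D 𝔪 hπ𝔪 hon1 hon2 hn hh hB hB' h1 h1' hu2 hu2' e

/-- **(F2' + F1c) every node of chart `B1` of the nodal model of `X₀(M' q)` has thickness dividing
`n = 12 · v_π(q)`** (`q¹² = π^n · unit`). -/
theorem exists_nodeData1_dvd (hq : q.Prime) (hq2 : q ≠ 2) (hM : 4 ∣ M')
    (ht : tq ↥K 4 8 ∈ FK M' K) (hE : FK (M' * q) K ≤ fracField (AK A K))
    {π : ↥(AK A K)} (hπ : IsUnif (AK A K) π)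
    (D : NodalNumData ↥(AK A K) ↥K ↥(FK (M' * q) K) π (tN q ht) (B0 A q ht) (B1 A q ht)
      (O1 M' q hπ hE) (O2 M' q hπ hE))
    {n : ℕ} {u : (↥(AK A K))ˣ} (hqπ : ((q : ℕ) : ↥(AK A K)) ^ 12 = π ^ n * u) (hn : 1 ≤ n)
    (𝔪 : Ideal (B1 A q ht)) [h𝔪 : 𝔪.IsMaximal]
    (hπ𝔪 : algebraMap ↥(AK A K) (B1 A q ht) π ∈ 𝔪)
    (hon1 : ¬ OffBranch π (B1 A q ht) (O1 M' q hπ hE) 𝔪)
    (hon2 : ¬ OffBranch π (B1 A q ht) (O2 M' q hπ hE) 𝔪) :
    ∃ (H₁ : BranchHyp (gB (B1 A q ht)) 𝔪 (O1 M' q hπ hE)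
        (algebraMap ↥(AK A K) (B1 A q ht) π))
      (H₂ : BranchHyp (gB (B1 A q ht)) 𝔪 (O2 M' q hπ hE)
        (algebraMap ↥(AK A K) (B1 A q ht) π))
      (x' y' : Localization.AtPrime 𝔪) (k : ℕ),
      NodeData (Localization.AtPrime 𝔪)
        (vv (gB (B1 A q ht)) (gB_injective (B1 A q ht)) 𝔪 (O1 M' q hπ hE)
          (algebraMap ↥(AK A K) (B1 A q ht) π))
        (vv (gB (B1 A q ht)) (gB_injective (B1 A q ht)) 𝔪 (O2 M' q hπ hE)
          (algebraMap ↥(AK A K) (B1 A q ht) π))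
        (PP (gB (B1 A q ht)) (gB_injective (B1 A q ht)) 𝔪 H₁)
        (PP (gB (B1 A q ht)) (gB_injective (B1 A q ht)) 𝔪 H₂)
        (algebraMap (B1 A q ht) (Localization.AtPrime 𝔪)
          (algebraMap ↥(AK A K) (B1 A q ht) π)) x' y' k ∧
      k ≤ n ∧ k ∣ n := by
  obtain ⟨h, h', u2, hh, hB, hB', h1, h1', hu2, hu2', e⟩ :=
    exists_test1 A q hq hq2 hM ht hE hπ D hqπ
  exact nodeData1_of_test D 𝔪 hπ𝔪 hon1 hon2 hn hh hB hB' h1 h1' hu2 hu2' e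

end Model

end Fermat.Agent.T1B.TestElt79
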